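/-
S56, wall W4, case C, BLOCK TR (Hopf side): sub-architect file (helper80).  Definitions and the
EXACT statements of the leaves, as `Prop`s.  FIXED.  Target: `HopfSideProp p` (`S56/W4/C/Defs.lean`)
from `T3Prop p (Pp p)` (block D).

`P` a valuation subring of `ℚ̄` over `p`, `I` its inertia group, `R' = inertiaRing P`.
Leaves (one file each in `S56/W4/C/TR/`, land sorry-free):
* `IOrdHopf.lean`  `iOrdHopfProp  : IOrdHopfProp p P`   a flat Galois module carries an `I`-order
                                                       (`spanB` of a Hopf order: Lib/FFL/Span, EtMax);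
* `IOrdSub.lean`   `iOrdSubProp   : IOrdSubProp P`     restriction of an `I`-order to a subgroup;
* `IOrdQuot.lean`  `iOrdQuotProp  : IOrdQuotProp p P`  quotient of an `I`-order (invariant functions;
                                                       Lib/FFL/Quot `comulClosed_transInv`, averaging);
* `Val.lean`       `valOrbitProp  : ValOrbitProp p P`  a nonunit of `P` with at most `m` conjugates
                                                       under `I` has `v ≥ 1/m` (norm + UNR);
* `Sharp.lean`     `sharpAbsProp  : SharpAbsProp p P`  translation formula ⟹ SHARP;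
* `Cheap.lean`     `cheapAbsProp  : CheapAbsProp p P`  norm trick ⟹ CHEAP;
* `Asm.lean`       `hopfSideProp`                      the sub-quotients of order `p⁴` of `V × V`.
-/
import Fermat.Agent.S56.W4.C.Defs

set_option autoImplicit false

namespace Fermat.Agent.S56.SS

open Fermat.Agent.F4 ExtCitation Fermat.Agent.FFL Fermat.Agent.FlatMod

local notation "Kb" => AlgebraicClosure ℚ
local notation "GK" => (AlgebraicClosure ℚ ≃ₐ[ℚ] AlgebraicClosure ℚ)

/-- **TR1**: a finite flat Galois module carries an `I`-order. -/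
def IOrdHopfProp (p : ℕ) (P : ValuationSubring Kb) : Prop :=
  p.Prime → P.LiesOverPrime p →
  ∀ (M : Type) [AddCommGroup M] [Finite M] (act : GK → M → M),
    IsFlatGaloisModule p M act → Nonempty (IOrd P M act)

/-- **TR2**: restriction of an `I`-order to a subgroup `N` (with an action `actN` which agrees on
inertia with `act`): the restrictions of the functions of the order. -/
def IOrdSubProp (P : ValuationSubring Kb) : Prop :=
  ∀ (W : Type) [AddCommGroup W] (act : GK → W → W) (B : IOrd P W act)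
    (N : Type) [AddCommGroup N] (i : N →+ W) (actN : GK → N → N),
    Function.Injective i →
    (∀ σ ∈ P.inertiaSubgroupIn ℚ, ∀ n : N, i (actN σ n) = act σ (i n)) →
    ∃ B' : IOrd P N actN, ∀ f : N → Kb, f ∈ B'.alg ↔ ∃ g ∈ B.alg, f = fun n => g (i n)

/-- **TR3**: quotient of an `I`-order by a subgroup: for a surjective `π : W →+ Q` (with an action
`actQ` on `Q` compatible on inertia) the functions `f` on `Q` with `f ∘ π` in the order. -/
def IOrdQuotProp (p : ℕ) (P : ValuationSubring Kb) : Prop :=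
  p.Prime → P.LiesOverPrime p →
  ∀ (W : Type) [AddCommGroup W] [Finite W] (act : GK → W → W) (B : IOrd P W act)
    (Q : Type) [AddCommGroup Q] (π : W →+ Q) (actQ : GK → Q → Q),
    IsIAction P act → Function.Surjective π →
    (∀ σ ∈ P.inertiaSubgroupIn ℚ, ∀ w : W, π (act σ w) = actQ σ (π w)) →
    ∃ B' : IOrd P Q actQ, ∀ f : Q → Kb, f ∈ B'.alg ↔ (fun w => f (π w)) ∈ B.alg

/-- **VAL**: if `y` is a nonunit of `P` and the conjugates of `y` under inertia lie in a finite set
with at most `m` elements, then `v(y) ≥ 1/m`. -/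
def ValOrbitProp (p : ℕ) (P : ValuationSubring Kb) : Prop :=
  p.Prime → P.LiesOverPrime p →
  ∀ (y : Kb) (T : Finset Kb) (m : ℕ), y ∈ P.nonunits →
    (∀ σ ∈ P.inertiaSubgroupIn ℚ, σ y ∈ T) → T.card ≤ m → 0 < m → ValGE p P y 1 m

/-- **SHARP, abstract form**.  `B` an `I`-order on `U`, `W'` a subgroup, `Z` a function of the order
with `Z 0 = 0` and `v(Z a) = 1/n` for `0 ≠ a ∈ W'`, while `v(Y a - Y 0) ≥ 1/n` for all `Y` of the
order and `a ∈ W'`.  If `w` reduces to `0` (`f w ≡ f 0` modulo `𝔪_P` for all `f` of the order) and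
`g` in inertia moves `w` inside `w + W'`, then `x = Z w` has `v(g x - x) = 1/n`. -/
def SharpAbsProp (p : ℕ) (P : ValuationSubring Kb) : Prop :=
  p.Prime → P.LiesOverPrime p →
  ∀ (U : Type) [AddCommGroup U] (act : GK → U → U) (B : IOrd P U act) (W' : AddSubgroup U)
    (n : ℕ) (Z : U → Kb), 0 < n → Z ∈ B.alg → Z 0 = 0 →
    (∀ a ∈ W', a ≠ 0 → ValLE p P (Z a) 1 n) →
    (∀ a ∈ W', ∀ Y ∈ B.alg, ValGE p P (Y a - Y 0) 1 n) →
    ∀ (w : U) (g : GK), (∀ f ∈ B.alg, f w - f 0 ∈ P.nonunits) →
      g ∈ P.inertiaSubgroupIn ℚ → act g w - w ∈ W' → act g w ≠ w →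
      ValLE p P (g (Z w) - Z w) 1 n

/-- **CHEAP, abstract form** (norm trick).  Setting of SHARP; `N'` a finite subgroup of `W'` with
`m` elements, `g` in inertia fixes `N'` pointwise and moves `w` to `w + a`, `a ∈ W'`, `a ∉ N'`.
Then some `x ∈ P` (an elementary symmetric function of the `Z (w + s)`, `s ∈ N'`) has
`v(g x - x) ≤ m/n`, and is fixed by every `h` in inertia which fixes `N'` pointwise and moves `w`
inside `w + N'`. -/
def CheapAbsProp (p : ℕ) (P : ValuationSubring Kb) : Prop :=
  p.Prime → P.LiesOverPrime p →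
  ∀ (U : Type) [AddCommGroup U] (act : GK → U → U) (B : IOrd P U act) (W' : AddSubgroup U)
    (n : ℕ) (Z : U → Kb), 0 < n → Z ∈ B.alg → Z 0 = 0 →
    (∀ a ∈ W', a ≠ 0 → ValLE p P (Z a) 1 n) →
    (∀ a ∈ W', ∀ Y ∈ B.alg, ValGE p P (Y a - Y 0) 1 n) →
    ∀ (N' : Finset U) (w : U) (g : GK), (∀ f ∈ B.alg, f w - f 0 ∈ P.nonunits) →
      (0 : U) ∈ N' → (∀ s ∈ N', s ∈ W') → (∀ s ∈ N', ∀ t ∈ N', s + t ∈ N') →
      g ∈ P.inertiaSubgroupIn ℚ → (∀ s ∈ N', act g s = s) →
      (∀ u v : U, act g (u + v) = act g u + act g v) →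
      act g w - w ∈ W' → act g w - w ∉ N' →
      ∃ x ∈ P, ValLE p P (g x - x) N'.card n ∧
        ∀ h ∈ P.inertiaSubgroupIn ℚ, (∀ s ∈ N', act h s = s) →
          (∀ u v : U, act h (u + v) = act h u + act h v) → act h w - w ∈ N' → h x = x

end Fermat.Agent.S56.SS
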