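/-
S56, wall W4, case C, block TR, leaf VAL (helper74; statement FIXED, `TR/Defs.lean`).

A nonunit `y` of `P` whose conjugates under inertia lie in a set with at most `m` elements has
`v(y) ≥ 1/m`: the product `N` of the inertia orbit `T₀` of `y` is an inertia-fixed nonunit, so
`p ∣ N` in `P` (UNR), and `v(y)^m ≤ v(y)^{#T₀} = v(N) ≤ v(p)`.
-/
import Fermat.Agent.S56.W4.C.TR.Defs
import Fermat.Agent.Lib.FFL.Unr
import Fermat.Agent.Lib.FFL.FB.FieldRoot

set_option autoImplicit false

namespace Fermat.Agent.S56.SS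

open Fermat.Agent.FFL

local notation "Kb" => AlgebraicClosure ℚ
local notation "GK" => (AlgebraicClosure ℚ ≃ₐ[ℚ] AlgebraicClosure ℚ)

/-- Inertia is contained in the decomposition group. -/
lemma valOrbit_inertia_le_decomp (P : ValuationSubring Kb) {σ : GK}
    (hσ : σ ∈ P.inertiaSubgroupIn ℚ) : σ ∈ P.decompositionSubgroup ℚ := by
  obtain ⟨d, -, rfl⟩ := hσ
  exact d.2

/-- **VAL**. -/
theorem valOrbitProp (p : ℕ) (P : ValuationSubring Kb) : ValOrbitProp p P := by
  classical
  intro hp hP y T m hy hT hcard hm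
  -- the inertia orbit of `y`
  set T₀ : Finset Kb := T.filter (fun t => ∃ σ ∈ P.inertiaSubgroupIn ℚ, σ y = t) with hT₀
  have hmem : ∀ t, t ∈ T₀ ↔ ∃ σ ∈ P.inertiaSubgroupIn ℚ, σ y = t := by
    intro t
    rw [hT₀, Finset.mem_filter]
    constructor
    · exact fun h => h.2
    · rintro ⟨σ, hσ, rfl⟩
      exact ⟨hT σ hσ, σ, hσ, rfl⟩
  have hyT₀ : y ∈ T₀ := (hmem y).2 ⟨1, Subgroup.one_mem _, rfl⟩
  have hval : ∀ t ∈ T₀, P.valuation t = P.valuation y := by
    intro t ht
    obtain ⟨σ, hσ, rfl⟩ := (hmem t).1 ht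
    exact FB.val_decomp (valOrbit_inertia_le_decomp P hσ) y
  -- its product
  set N : Kb := ∏ t ∈ T₀, t with hN
  have hNval : P.valuation N = P.valuation y ^ T₀.card := by
    rw [hN, map_prod, Finset.prod_congr rfl hval, Finset.prod_const]
  have hvy : P.valuation y < 1 := (ValuationSubring.mem_nonunits_iff P).1 hy
  have hcard0 : 0 < T₀.card := Finset.card_pos.2 ⟨y, hyT₀⟩
  have hNnon : N ∈ P.nonunits := by
    rw [ValuationSubring.mem_nonunits_iff, hNval]
    exact pow_lt_one₀ zero_le hvy hcard0.ne'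
  have hNfix : ∀ σ ∈ P.inertiaSubgroupIn ℚ, σ N = N := by
    intro σ hσ
    have himg : T₀.image σ = T₀ := by
      apply Finset.eq_of_subset_of_card_le
      · intro t ht
        obtain ⟨s, hs, rfl⟩ := Finset.mem_image.1 ht
        obtain ⟨τ, hτ, rfl⟩ := (hmem s).1 hs
        exact (hmem _).2 ⟨σ * τ, Subgroup.mul_mem _ hσ hτ, rfl⟩
      · rw [Finset.card_image_of_injective _ σ.injective]
    rw [hN, map_prod]
    conv_rhs => rw [← himg]
    rw [Finset.prod_image (fun a _ b _ h => σ.injective h)]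
  have hNp : N / (p : Kb) ∈ P := unrProp p hp P hP N hNnon hNfix
  -- conclusion
  show y ^ m / (p : Kb) ^ 1 ∈ P
  rw [pow_one]
  rw [← ValuationSubring.valuation_le_one_iff] at hNp ⊢
  rw [map_div₀, map_pow]
  rw [map_div₀, hNval] at hNp
  have hle : P.valuation y ^ m ≤ P.valuation y ^ T₀.card :=
    pow_le_pow_of_le_one zero_le hvy.le
      ((Finset.card_le_card (Finset.filter_subset _ _)).trans hcard)
  refine le_trans ?_ hNp
  rw [div_eq_mul_inv, div_eq_mul_inv]
  gcongr
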