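/-
S56, wall W4, case C, block TR (helper37), file CORE: finite-field algebra used by the models.

`k` a finite field, `u ∈ k` of multiplicative order `≥ q - 1`, `S ≤ k` an additive subgroup stable
under multiplication by `u`.  Then `k ⧸ S` is zero or has at least `q` elements; if it has exactly
`q` elements, the only `u`-stable subgroups containing `S` are `S` and `k`.
Also: `S' ⊓ u⁻¹ S'` is `u`-stable when `u` satisfies a monic quadratic equation with integer
coefficients.
-/
import Mathlib

set_option autoImplicit false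

namespace Fermat.Agent.S56.SS

variable {k : Type} [Field k]

/-- The ring of multipliers of an additive subgroup. -/
def stabRing (S : AddSubgroup k) : Subring k where
  carrier := {x | ∀ z ∈ S, x * z ∈ S}
  mul_mem' := fun {a b} ha hb z hz => by rw [mul_assoc]; exact ha _ (hb z hz)
  one_mem' := fun z hz => by rwa [one_mul]
  add_mem' := fun {a b} ha hb z hz => by rw [add_mul]; exact S.add_mem (ha z hz) (hb z hz)
  zero_mem' := fun z _ => by rw [zero_mul]; exact S.zero_mem
  neg_mem' := fun {a} ha z hz => by rw [neg_mul]; exact S.neg_mem (ha z hz)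

theorem mem_stabRing {S : AddSubgroup k} {x : k} : x ∈ stabRing S ↔ ∀ z ∈ S, x * z ∈ S :=
  Iff.rfl

/-- In a finite field the multiplier ring is a field. -/
theorem trc_inv_mem_stabRing [Finite k] {S : AddSubgroup k} {d : k} (hd : d ∈ stabRing S)
    (hd0 : d ≠ 0) : d⁻¹ ∈ stabRing S := by
  have hpos : 0 < orderOf (Units.mk0 d hd0) := orderOf_pos _
  have h1 : (Units.mk0 d hd0) ^ orderOf (Units.mk0 d hd0) = 1 := pow_orderOf_eq_one _
  have h2 : d ^ orderOf (Units.mk0 d hd0) = 1 := by
    have h := congrArg (fun x : kˣ => (x : k)) h1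
    simp only [Units.val_pow_eq_pow_val, Units.val_mk0, Units.val_one] at h
    exact h
  have h3 : d⁻¹ = d ^ (orderOf (Units.mk0 d hd0) - 1) := by
    have h4 : d * d ^ (orderOf (Units.mk0 d hd0) - 1) = 1 := by
      rw [← pow_succ', Nat.sub_add_cancel hpos, h2]
    exact (eq_inv_of_mul_eq_one_right h4).symm
  rw [h3]
  exact pow_mem hd _

/-- The elements `0, 1, u, …, u^(q-2)`. -/
def powFam (u : k) (q : ℕ) (a : Fin q) : k :=
  if (a : ℕ) = 0 then 0 else u ^ ((a : ℕ) - 1)

theorem trc_powFam_mem (u : k) (q : ℕ) {S : AddSubgroup k} (hS : ∀ z ∈ S, u * z ∈ S)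
    (a : Fin q) : powFam u q a ∈ stabRing S := by
  unfold powFam
  split_ifs
  · exact (stabRing S).zero_mem
  · exact pow_mem (mem_stabRing.2 hS) _

theorem trc_powFam_injective (u : k) (q : ℕ) (hu0 : u ≠ 0)
    (hord : ∀ n : ℕ, 0 < n → u ^ n = 1 → q - 1 ≤ n) : Function.Injective (powFam u q) := by
  have key : ∀ m n : ℕ, m < n → n < q - 1 → u ^ m ≠ u ^ n := by
    intro m n hmn hn h
    have h1 : u ^ n = u ^ m * u ^ (n - m) := by rw [← pow_add]; congr 1; omega
    rw [h1] at h
    have h2 : u ^ (n - m) = 1 := by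
      have hm0 : u ^ m ≠ 0 := pow_ne_zero _ hu0
      exact mul_left_cancel₀ hm0 (by rw [← h, mul_one])
    have := hord (n - m) (by omega) h2
    omega
  intro a b hab
  unfold powFam at hab
  apply Fin.ext
  have ha := a.2
  have hb := b.2
  split_ifs at hab with h1 h2 h2
  · omega
  · exact absurd hab.symm (pow_ne_zero _ hu0)
  · exact absurd hab (pow_ne_zero _ hu0)
  · rcases Nat.lt_trichotomy ((a : ℕ) - 1) ((b : ℕ) - 1) with h | h | h
    · exact absurd hab (key _ _ h (by omega))
    · omega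
    · exact absurd hab.symm (key _ _ h (by omega))

/-- The classes of the `powFam u q a * z` modulo `S` are pairwise distinct if `z ∉ S`. -/
theorem trc_classes_injective [Finite k] (u : k) (q : ℕ) (hu0 : u ≠ 0)
    (hord : ∀ n : ℕ, 0 < n → u ^ n = 1 → q - 1 ≤ n) (S : AddSubgroup k)
    (hS : ∀ z ∈ S, u * z ∈ S) {z : k} (hz : z ∉ S) :
    Function.Injective (fun a : Fin q => (QuotientAddGroup.mk (powFam u q a * z) : k ⧸ S)) := by
  intro a b hab
  by_contra hne
  have hd0 : powFam u q a - powFam u q b ≠ 0 :=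
    sub_ne_zero.2 (fun h => hne (trc_powFam_injective u q hu0 hord h))
  have hd : powFam u q a - powFam u q b ∈ stabRing S :=
    (stabRing S).sub_mem (trc_powFam_mem u q hS a) (trc_powFam_mem u q hS b)
  have h1 : (powFam u q a - powFam u q b) * z ∈ S := by
    have := (QuotientAddGroup.eq (s := S)).1 hab
    have e : (powFam u q a - powFam u q b) * z = -(-(powFam u q a * z) + powFam u q b * z) := by
      ring
    rw [e]
    exact S.neg_mem this
  have h2 := trc_inv_mem_stabRing hd hd0 _ h1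
  rw [← mul_assoc, inv_mul_cancel₀ hd0, one_mul] at h2
  exact hz h2

/-- A proper `u`-stable subgroup has index at least `q`. -/
theorem trc_le_index [Finite k] (u : k) (q : ℕ) (hu0 : u ≠ 0)
    (hord : ∀ n : ℕ, 0 < n → u ^ n = 1 → q - 1 ≤ n) (S : AddSubgroup k)
    (hS : ∀ z ∈ S, u * z ∈ S) {z : k} (hz : z ∉ S) : q ≤ S.index := by
  have h := Nat.card_le_card_of_injective _ (trc_classes_injective u q hu0 hord S hS hz)
  rwa [Nat.card_fin, ← AddSubgroup.index_eq_card] at h

/-- If `S` is `u`-stable of index `q`, a `u`-stable subgroup `T ≥ S` is `S` or everything. -/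
theorem trc_simple [Finite k] (u : k) (q : ℕ) (hu0 : u ≠ 0)
    (hord : ∀ n : ℕ, 0 < n → u ^ n = 1 → q - 1 ≤ n) (S : AddSubgroup k)
    (hS : ∀ z ∈ S, u * z ∈ S) (hidx : S.index = q) (T : AddSubgroup k) (hST : S ≤ T)
    (hT : ∀ z ∈ T, u * z ∈ T) : T ≤ S ∨ T = ⊤ := by
  by_cases h : T ≤ S
  · exact Or.inl h
  right
  obtain ⟨z, hzT, hzS⟩ := SetLike.not_le_iff_exists.1 h
  have hinj := trc_classes_injective u q hu0 hord S hS hzS
  have hbij := hinj.bijective_of_nat_card_le
    (by rw [Nat.card_fin, ← AddSubgroup.index_eq_card, hidx])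
  rw [eq_top_iff]
  intro y _
  obtain ⟨a, ha⟩ := hbij.2 (QuotientAddGroup.mk y)
  have h1 : -(powFam u q a * z) + y ∈ S := (QuotientAddGroup.eq (s := S)).1 ha
  have h2 : powFam u q a * z ∈ T := trc_powFam_mem u q hT a z hzT
  have e : y = powFam u q a * z + (-(powFam u q a * z) + y) := by ring
  rw [e]
  exact T.add_mem h2 (hST h1)

/-! ### The `u`-stable core of a subgroup -/

/-- `S' ⊓ u⁻¹ S'`. -/
def coreS (u : k) (S' : AddSubgroup k) : AddSubgroup k :=
  S' ⊓ S'.comap (AddMonoidHom.mulLeft u)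

theorem mem_coreS {u : k} {S' : AddSubgroup k} {z : k} :
    z ∈ coreS u S' ↔ z ∈ S' ∧ u * z ∈ S' := Iff.rfl

theorem coreS_le (u : k) (S' : AddSubgroup k) : coreS u S' ≤ S' := inf_le_left

theorem trc_coreS_stable (u : k) (t n : ℤ) (hquad : u * u = (t : k) * u - (n : k))
    (S' : AddSubgroup k) : ∀ z ∈ coreS u S', u * z ∈ coreS u S' := by
  intro z hz
  rw [mem_coreS] at hz ⊢
  refine ⟨hz.2, ?_⟩
  have e : u * (u * z) = t • (u * z) - n • z := by
    rw [← mul_assoc, hquad, zsmul_eq_mul, zsmul_eq_mul]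
    ring
  rw [e]
  exact S'.sub_mem (S'.zsmul_mem hz.2 t) (S'.zsmul_mem hz.1 n)

theorem trc_coreS_index_le [Finite k] (u : k) (hu0 : u ≠ 0) (S' : AddSubgroup k) :
    (coreS u S').index ≤ S'.index * S'.index := by
  have hsurj : Function.Surjective (AddMonoidHom.mulLeft u : k →+ k) := fun y =>
    ⟨u⁻¹ * y, by simp [hu0]⟩
  have h1 := AddSubgroup.index_inf_le (H := S') (K := S'.comap (AddMonoidHom.mulLeft u))
  rwa [AddSubgroup.index_comap_of_surjective S' hsurj] at h1

/-- The core of a subgroup of index `p` has index `p ^ 2`. -/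
theorem trc_coreS_index [Finite k] (p : ℕ) (hp : 2 ≤ p) (u : k) (hu0 : u ≠ 0)
    (hord : ∀ n : ℕ, 0 < n → u ^ n = 1 → p ^ 2 - 1 ≤ n) (t n : ℤ)
    (hquad : u * u = (t : k) * u - (n : k)) (S' : AddSubgroup k) (hS' : S'.index = p) :
    (coreS u S').index = p ^ 2 := by
  apply le_antisymm
  · have := trc_coreS_index_le u hu0 S'
    rwa [hS', ← sq] at this
  · have hne : S' ≠ ⊤ := by
      intro h
      rw [h, AddSubgroup.index_top] at hS'
      omega
    obtain ⟨z, hz⟩ : ∃ z, z ∉ S' := by
      by_contra hcon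
      exact hne (eq_top_iff.2 fun z _ => not_not.1 fun hz => hcon ⟨z, hz⟩)
    exact trc_le_index u (p ^ 2) hu0 hord (coreS u S') (trc_coreS_stable u t n hquad S')
      (fun h => hz (coreS_le u S' h))

/-- The image of `S'` in `k ⧸ coreS` has `p` elements. -/
theorem trc_card_image [Finite k] (p : ℕ) (hp : 0 < p) (S S' : AddSubgroup k) (hSS' : S ≤ S')
    (hS : S.index = p ^ 2) (hS' : S'.index = p) :
    Nat.card (S'.map (QuotientAddGroup.mk' S)) = p := by
  have h1 : (S'.map (QuotientAddGroup.mk' S)).index = S'.index :=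
    AddSubgroup.index_map_eq S' (QuotientAddGroup.mk'_surjective S)
      (by rw [QuotientAddGroup.ker_mk']; exact hSS')
  have h2 := AddSubgroup.card_mul_index (S'.map (QuotientAddGroup.mk' S))
  rw [h1, hS', ← AddSubgroup.index_eq_card, hS, sq] at h2
  exact Nat.eq_of_mul_eq_mul_right hp h2

end Fermat.Agent.S56.SS
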