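/-
S56, wall W4, case C, block TR (sub-architect helper37), file MODEL: the modules used in the
assembly of `HopfSideProp`.

`s : SSStruct p ρbar`, `V = ρbar.V` with the inertia eigenbasis `b 0, b 1` (characters `ψ, ψ^p`),
`M = V × V` with `defAct ρbar c`.  For an index `i` and a subgroup `S` of `k` stable under
multiplication by the `ψ σ`:
* `NV s i S = {v | (i-th coordinate of v) ∈ S}`,  `W = V ⧸ NV` (`≅ k ⧸ S`, character `ψ^{p^i}`);
* `NM s i S = {0} × NV s i S`,                    `U = (V × V) ⧸ NM`;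
* `W ↪ U` by `v ↦ (0, v)`.
-/
import Fermat.Agent.S56.W4.C.TR.Defs
import Fermat.Agent.S56.W4.C.D.Defs
import Fermat.Agent.S56.W3.SO.Place
import Fermat.Agent.S56.W4.C.TR.Core

set_option autoImplicit false

namespace Fermat.Agent.S56.SS

open Fermat.Agent.F4 ExtCitation Fermat.Agent.FFL Fermat.Agent.FlatMod

local notation "Kb" => AlgebraicClosure ℚ
local notation "GK" => (AlgebraicClosure ℚ ≃ₐ[ℚ] AlgebraicClosure ℚ)

variable {p : ℕ} [Fact p.Prime] {k : Type} [Field k] {ρbar : ResidualGaloisRep k}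

/-! ### Part A: the characters -/

/-- The character of inertia on the line `k · b i`. -/
def psiI (s : SSStruct p ρbar) (i : Fin 2) (σ : GK) : k :=
  if i = 0 then s.ψ σ else (s.ψ σ) ^ p

theorem trm_diag (s : SSStruct p ρbar) (i : Fin 2) {σ : GK} (hσ : σ ∈ Ip p) :
    ρbar.ρ σ (s.b i) = psiI s i σ • s.b i := by
  unfold psiI
  fin_cases i
  · simpa using s.diag0 σ hσ
  · simpa using s.diag1 σ hσ

theorem trm_psi_mul (s : SSStruct p ρbar) {σ τ : GK} (hσ : σ ∈ Ip p) (hτ : τ ∈ Ip p) :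
    s.ψ (σ * τ) = s.ψ σ * s.ψ τ := by
  have h1 := s.diag0 (σ * τ) (mul_mem hσ hτ)
  rw [map_mul, Module.End.mul_apply, s.diag0 τ hτ, map_smul, s.diag0 σ hσ, smul_smul] at h1
  have h2 : (s.ψ τ * s.ψ σ - s.ψ (σ * τ)) • s.b 0 = 0 := by
    rw [sub_smul, h1, sub_self]
  rcases smul_eq_zero.1 h2 with h | h
  · rw [mul_comm, ← sub_eq_zero.1 h]
  · exact absurd h (s.b.ne_zero 0)

theorem trm_psi_one (s : SSStruct p ρbar) : s.ψ 1 = 1 := by
  have h1 := s.diag0 1 (one_mem _)
  rw [map_one, Module.End.one_apply] at h1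
  have h2 : (1 - s.ψ 1) • s.b 0 = 0 := by
    rw [sub_smul, one_smul, ← h1, sub_self]
  rcases smul_eq_zero.1 h2 with h | h
  · exact (sub_eq_zero.1 h).symm
  · exact absurd h (s.b.ne_zero 0)

theorem trm_psi_pow (s : SSStruct p ρbar) {σ : GK} (hσ : σ ∈ Ip p) (n : ℕ) :
    s.ψ (σ ^ n) = s.ψ σ ^ n := by
  induction n with
  | zero => simpa using trm_psi_one s
  | succ n ih => rw [pow_succ, trm_psi_mul s (pow_mem hσ n) hσ, ih, pow_succ]

theorem trm_psiI_mul (s : SSStruct p ρbar) (i : Fin 2) {σ τ : GK} (hσ : σ ∈ Ip p)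
    (hτ : τ ∈ Ip p) : psiI s i (σ * τ) = psiI s i σ * psiI s i τ := by
  unfold psiI
  split_ifs
  · exact trm_psi_mul s hσ hτ
  · rw [trm_psi_mul s hσ hτ, mul_pow]

theorem trm_psiI_one (s : SSStruct p ρbar) (i : Fin 2) : psiI s i 1 = 1 := by
  unfold psiI
  split_ifs <;> simp [trm_psi_one s]

theorem trm_psiI_eq_one (s : SSStruct p ρbar) (i : Fin 2) {σ : GK} (h : s.ψ σ = 1) :
    psiI s i σ = 1 := by
  unfold psiI
  split_ifs <;> simp [h]

theorem trm_two_le (p : ℕ) [hp : Fact p.Prime] : 2 ≤ p := hp.out.two_le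

theorem trm_lt_sq (p : ℕ) [Fact p.Prime] : p < p ^ 2 - 1 := by
  have h2 := trm_two_le p
  have h3 : p * 2 ≤ p * p := Nat.mul_le_mul_left p h2
  have h4 : p ^ 2 = p * p := sq p
  omega

theorem trm_psiI_tau_ne_one (s : SSStruct p ρbar) (i : Fin 2) : psiI s i s.τ ≠ 1 := by
  have h2 := trm_two_le p
  have h3 := trm_lt_sq p
  unfold psiI
  split_ifs
  · intro h
    have := s.ord 1 Nat.one_pos (by simpa using h)
    omega
  · intro h
    have := s.ord p (by omega) h
    omega

/-- The coordinates of `ρbar σ v` for `σ` in inertia. -/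
theorem trm_repr_rho (s : SSStruct p ρbar) (i : Fin 2) {σ : GK} (hσ : σ ∈ Ip p) (v : ρbar.V) :
    s.b.repr (ρbar.ρ σ v) i = psiI s i σ * s.b.repr v i := by
  conv_lhs => rw [← s.b.sum_repr v]
  rw [map_sum]
  simp only [map_smul, trm_diag s _ hσ, Fin.sum_univ_two, map_add, Finsupp.coe_add,
    Pi.add_apply, Finsupp.smul_apply, smul_eq_mul, Module.Basis.repr_self]
  fin_cases i <;> simp [mul_comm]

/-- Elements of `I₁` act trivially on `V`. -/
theorem trm_rho_I1 (s : SSStruct p ρbar) {h : GK} (hh : h ∈ I1 s) (v : ρbar.V) :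
    ρbar.ρ h v = v := by
  apply s.b.repr.injective
  ext i
  rw [trm_repr_rho s i hh.1, trm_psiI_eq_one s i hh.2, one_mul]

/-! ### Part B: the module `V × V` -/

/-- `defAct` as an additive map. -/
noncomputable def defActHom (ρbar : ResidualGaloisRep k) (c : GK → Module.End k ρbar.V)
    (σ : GK) : ρbar.V × ρbar.V →+ ρbar.V × ρbar.V where
  toFun := defAct ρbar c σ
  map_zero' := by simp [defAct]
  map_add' := fun x y => by
    simp only [defAct, Prod.fst_add, Prod.snd_add, map_add, Prod.mk_add_mk]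
    congr 1
    abel

@[simp] theorem defActHom_apply (c : GK → Module.End k ρbar.V) (σ : GK)
    (x : ρbar.V × ρbar.V) : defActHom ρbar c σ x = defAct ρbar c σ x := rfl

theorem trm_c_one (c : GK → Module.End k ρbar.V)
    (hc : ∀ σ τ : GK, c (σ * τ) = c σ + ρbar.ρ σ * c τ * ρbar.ρ σ⁻¹) : c 1 = 0 := by
  have h := hc 1 1
  simp only [mul_one, map_one, inv_one, one_mul] at h
  exact left_eq_add.1 h

theorem trm_defAct_mul (c : GK → Module.End k ρbar.V)
    (hc : ∀ σ τ : GK, c (σ * τ) = c σ + ρbar.ρ σ * c τ * ρbar.ρ σ⁻¹) (σ τ : GK)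
    (x : ρbar.V × ρbar.V) :
    defAct ρbar c (σ * τ) x = defAct ρbar c σ (defAct ρbar c τ x) := by
  have hinv : ρbar.ρ σ⁻¹ * ρbar.ρ σ = 1 := by rw [← map_mul, inv_mul_cancel, map_one]
  have hinv' : ∀ v, ρbar.ρ σ⁻¹ (ρbar.ρ σ v) = v := fun v => by
    rw [← Module.End.mul_apply, hinv, Module.End.one_apply]
  simp only [defAct, hc σ τ, map_mul, Module.End.mul_apply, LinearMap.add_apply, map_add,
    hinv']
  congr 1
  abel

theorem trm_isIAction_defAct (P : ValuationSubring Kb) (c : GK → Module.End k ρbar.V)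
    (hc : ∀ σ τ : GK, c (σ * τ) = c σ + ρbar.ρ σ * c τ * ρbar.ρ σ⁻¹) :
    IsIAction P (defAct ρbar c) := by
  refine ⟨fun σ _ w w' => (defActHom ρbar c σ).map_add w w', fun w => ?_,
    fun σ _ τ _ w => trm_defAct_mul c hc σ τ w⟩
  simp [defAct, trm_c_one c hc]

/-! ### Part B3: `V` and `V × V` have no inertia coinvariants -/

/-- `ρbar τ - 1` is surjective on `V`. -/
theorem trm_exists_rho_sub (s : SSStruct p ρbar) (v : ρbar.V) :
    ∃ v' : ρbar.V, ρbar.ρ s.τ v' - v' = v := by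
  refine ⟨s.b.equivFun.symm (fun i => s.b.repr v i / (psiI s i s.τ - 1)), ?_⟩
  apply s.b.repr.injective
  ext i
  have hne : psiI s i s.τ - 1 ≠ 0 := sub_ne_zero.2 (trm_psiI_tau_ne_one s i)
  rw [map_sub, Finsupp.sub_apply, trm_repr_rho s i s.τ_mem]
  have h1 : s.b.repr (s.b.equivFun.symm (fun i => s.b.repr v i / (psiI s i s.τ - 1))) i
      = s.b.repr v i / (psiI s i s.τ - 1) := by
    have := congrFun (s.b.equivFun.apply_symm_apply
      (fun i => s.b.repr v i / (psiI s i s.τ - 1))) i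
    simpa [Module.Basis.equivFun_apply] using this
  rw [h1]
  field_simp

theorem trm_sub_mem_augI (P : ValuationSubring Kb) {W : Type} [AddCommGroup W]
    (act : GK → W → W) {σ : GK} (hσ : σ ∈ P.inertiaSubgroupIn ℚ) (v : W) :
    act σ v - v ∈ augI P act :=
  AddSubgroup.subset_closure ⟨σ, hσ, v, Set.mem_univ _, rfl⟩

/-- `V × V` has no inertia coinvariants. -/
theorem trm_augI_defAct (s : SSStruct p ρbar) (c : GK → Module.End k ρbar.V)
    (x : ρbar.V × ρbar.V) : x ∈ augI (Pp p) (defAct ρbar c) := by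
  have h0 : ∀ v : ρbar.V, ((0 : ρbar.V), v) ∈ augI (Pp p) (defAct ρbar c) := by
    intro v
    obtain ⟨v', hv'⟩ := trm_exists_rho_sub s v
    have h := trm_sub_mem_augI (Pp p) (defAct ρbar c) s.τ_mem ((0 : ρbar.V), v')
    have e : defAct ρbar c s.τ ((0 : ρbar.V), v') - ((0 : ρbar.V), v') = ((0 : ρbar.V), v) := by
      simp [defAct, hv']
    rwa [e] at h
  have h1 : ∀ v : ρbar.V, (v, (0 : ρbar.V)) ∈ augI (Pp p) (defAct ρbar c) := by
    intro v
    obtain ⟨v', hv'⟩ := trm_exists_rho_sub s v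
    have h := trm_sub_mem_augI (Pp p) (defAct ρbar c) s.τ_mem (v', (0 : ρbar.V))
    have e : defAct ρbar c s.τ (v', (0 : ρbar.V)) - (v', (0 : ρbar.V))
        = (v, (0 : ρbar.V)) + ((0 : ρbar.V), c s.τ (ρbar.ρ s.τ v')) := by
      simp [defAct, hv']
    rw [e] at h
    have h2 := (augI (Pp p) (defAct ρbar c)).sub_mem h (h0 (c s.τ (ρbar.ρ s.τ v')))
    simpa using h2
  have e : x = (x.1, (0 : ρbar.V)) + ((0 : ρbar.V), x.2) := by simp
  rw [e]
  exact (augI (Pp p) (defAct ρbar c)).add_mem (h1 _) (h0 _)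

/-! ### Part C: actions on quotients -/

/-- The action induced on a quotient by an additive action stabilising `N` (the identity for the
`σ` which do not stabilise `N`). -/
noncomputable def quotAct {M : Type} [AddCommGroup M] (act : GK → M →+ M) (N : AddSubgroup M)
    (σ : GK) : M ⧸ N → M ⧸ N :=
  open Classical in
  if h : N ≤ N.comap (act σ) then QuotientAddGroup.map N N (act σ) h else id

theorem quotAct_mk {M : Type} [AddCommGroup M] (act : GK → M →+ M) (N : AddSubgroup M)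
    {σ : GK} (h : N ≤ N.comap (act σ)) (m : M) :
    quotAct act N σ (QuotientAddGroup.mk m) = QuotientAddGroup.mk (act σ m) := by
  unfold quotAct
  rw [dif_pos h]
  rfl

theorem quotAct_add {M : Type} [AddCommGroup M] (act : GK → M →+ M) (N : AddSubgroup M)
    (σ : GK) (u v : M ⧸ N) : quotAct act N σ (u + v) = quotAct act N σ u + quotAct act N σ v := by
  unfold quotAct
  split_ifs
  · exact map_add _ u v
  · rfl

theorem trm_isIAction_quotAct (P : ValuationSubring Kb) {M : Type} [AddCommGroup M]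
    (act : GK → M →+ M) (hact : IsIAction P (fun σ => (act σ : M → M))) (N : AddSubgroup M)
    (hN : ∀ σ ∈ P.inertiaSubgroupIn ℚ, N ≤ N.comap (act σ)) :
    IsIAction P (quotAct act N) := by
  refine ⟨fun σ _ w w' => quotAct_add act N σ w w', fun w => ?_, fun σ hσ τ hτ w => ?_⟩
  · induction w using QuotientAddGroup.induction_on with
    | H m =>
      rw [quotAct_mk act N (hN 1 (one_mem _))]
      exact congrArg _ (hact.2.1 m)
  · induction w using QuotientAddGroup.induction_on with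
    | H m =>
      rw [quotAct_mk act N (hN _ (mul_mem hσ hτ)), quotAct_mk act N (hN τ hτ),
        quotAct_mk act N (hN σ hσ)]
      exact congrArg _ (hact.2.2 σ hσ τ hτ m)

/-- If `M` has no inertia coinvariants, neither has `M ⧸ N`. -/
theorem trm_augI_quotAct (P : ValuationSubring Kb) {M : Type} [AddCommGroup M]
    (act : GK → M →+ M) (N : AddSubgroup M)
    (hN : ∀ σ ∈ P.inertiaSubgroupIn ℚ, N ≤ N.comap (act σ))
    (hM : ∀ m : M, m ∈ augI P (fun σ => (act σ : M → M))) (u : M ⧸ N) :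
    u ∈ augI P (quotAct act N) := by
  induction u using QuotientAddGroup.induction_on with
  | H m =>
    have h := hM m
    unfold augI augOn at h
    induction h using AddSubgroup.closure_induction with
    | mem x hx =>
      obtain ⟨σ, hσ, v, -, rfl⟩ := hx
      have := trm_sub_mem_augI P (quotAct act N) hσ (QuotientAddGroup.mk v : M ⧸ N)
      rwa [quotAct_mk act N (hN σ hσ)] at this
    | zero => exact (augI P (quotAct act N)).zero_mem
    | add x y _ _ hx hy => exact (augI P (quotAct act N)).add_mem hx hy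
    | neg x _ hx => exact (augI P (quotAct act N)).neg_mem hx

/-! ### Part C2: the models `W = k ⧸ S` and `U = (V × V) ⧸ ({0} × NV)` -/

/-- `ρbar σ` as an additive map. -/
noncomputable def rhoHom (ρbar : ResidualGaloisRep k) (σ : GK) : ρbar.V →+ ρbar.V :=
  (ρbar.ρ σ).toAddMonoidHom

/-- Multiplication by the character `psiI s i σ`, as an additive map of `k`. -/
noncomputable def mulHom (s : SSStruct p ρbar) (i : Fin 2) (σ : GK) : k →+ k :=
  AddMonoidHom.mulLeft (psiI s i σ)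

@[simp] theorem mulHom_apply (s : SSStruct p ρbar) (i : Fin 2) (σ : GK) (z : k) :
    mulHom s i σ z = psiI s i σ * z := rfl

/-- The `i`-th coordinate, as an additive map. -/
noncomputable def coordHom (s : SSStruct p ρbar) (i : Fin 2) : ρbar.V →+ k where
  toFun := fun v => s.b.repr v i
  map_zero' := by simp
  map_add' := fun v w => by simp

@[simp] theorem coordHom_apply (s : SSStruct p ρbar) (i : Fin 2) (v : ρbar.V) :
    coordHom s i v = s.b.repr v i := rfl

/-- `NV = {v | i-th coordinate ∈ S}`. -/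
noncomputable def NV (s : SSStruct p ρbar) (i : Fin 2) (S : AddSubgroup k) :
    AddSubgroup ρbar.V := S.comap (coordHom s i)

/-- `NM = {0} × NV`. -/
noncomputable def NM (s : SSStruct p ρbar) (i : Fin 2) (S : AddSubgroup k) :
    AddSubgroup (ρbar.V × ρbar.V) := AddSubgroup.prod ⊥ (NV s i S)

theorem mem_NM (s : SSStruct p ρbar) (i : Fin 2) (S : AddSubgroup k)
    (x : ρbar.V × ρbar.V) : x ∈ NM s i S ↔ x.1 = 0 ∧ s.b.repr x.2 i ∈ S := by
  unfold NM NV
  rw [AddSubgroup.mem_prod, AddSubgroup.mem_bot, AddSubgroup.mem_comap, coordHom_apply]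

/-- Powers of the character of `τ` give the characters of inertia. -/
theorem trm_psiI_gen (s : SSStruct p ρbar) (i : Fin 2) {σ : GK} (hσ : σ ∈ Ip p) :
    ∃ n : ℕ, psiI s i σ = psiI s i s.τ ^ n := by
  obtain ⟨n, hn⟩ := s.gen σ hσ
  refine ⟨n, ?_⟩
  unfold psiI
  split_ifs
  · exact hn
  · rw [hn, ← pow_mul, ← pow_mul, mul_comm]

/-- `S` is stable under the characters of inertia if it is under the character of `τ`. -/
theorem trm_stable (s : SSStruct p ρbar) (i : Fin 2) (S : AddSubgroup k)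
    (hS : ∀ z ∈ S, psiI s i s.τ * z ∈ S) {σ : GK} (hσ : σ ∈ Ip p) :
    ∀ z ∈ S, psiI s i σ * z ∈ S := by
  have key : ∀ n : ℕ, ∀ z ∈ S, psiI s i s.τ ^ n * z ∈ S := by
    intro n
    induction n with
    | zero => intro z hz; simpa using hz
    | succ n ih => intro z hz; rw [pow_succ, mul_assoc]; exact ih _ (hS z hz)
  obtain ⟨n, hn⟩ := trm_psiI_gen s i hσ
  rw [hn]
  exact key n

theorem trm_S_le_comap (s : SSStruct p ρbar) (i : Fin 2) (S : AddSubgroup k)
    (hS : ∀ z ∈ S, psiI s i s.τ * z ∈ S) {σ : GK} (hσ : σ ∈ Ip p) :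
    S ≤ S.comap (mulHom s i σ) := fun z hz => trm_stable s i S hS hσ z hz

theorem trm_NM_le_comap (s : SSStruct p ρbar) (c : GK → Module.End k ρbar.V) (i : Fin 2)
    (S : AddSubgroup k) (hS : ∀ z ∈ S, psiI s i s.τ * z ∈ S) {σ : GK} (hσ : σ ∈ Ip p) :
    NM s i S ≤ (NM s i S).comap (defActHom ρbar c σ) := by
  intro x hx
  rw [mem_NM] at hx
  rw [AddSubgroup.mem_comap, mem_NM, defActHom_apply]
  obtain ⟨h1, h2⟩ := hx
  refine ⟨by simp [defAct, h1], ?_⟩
  simp only [defAct, h1, map_zero, zero_add]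
  rw [trm_repr_rho s i hσ]
  exact trm_stable s i S hS hσ _ h2

/-- The action on `W = k ⧸ S`. -/
noncomputable def actW (s : SSStruct p ρbar) (i : Fin 2) (S : AddSubgroup k) :
    GK → k ⧸ S → k ⧸ S := quotAct (mulHom s i) S

/-- The action on `U = (V × V) ⧸ NM`. -/
noncomputable def actU (s : SSStruct p ρbar) (c : GK → Module.End k ρbar.V) (i : Fin 2)
    (S : AddSubgroup k) :
    GK → (ρbar.V × ρbar.V) ⧸ NM s i S → (ρbar.V × ρbar.V) ⧸ NM s i S :=
  quotAct (defActHom ρbar c) (NM s i S)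

theorem actW_mk (s : SSStruct p ρbar) (i : Fin 2) (S : AddSubgroup k)
    (hS : ∀ z ∈ S, psiI s i s.τ * z ∈ S) {σ : GK} (hσ : σ ∈ Ip p) (z : k) :
    actW s i S σ (QuotientAddGroup.mk z) = QuotientAddGroup.mk (psiI s i σ * z) :=
  quotAct_mk (mulHom s i) S (trm_S_le_comap s i S hS hσ) z

theorem actU_mk (s : SSStruct p ρbar) (c : GK → Module.End k ρbar.V) (i : Fin 2)
    (S : AddSubgroup k) (hS : ∀ z ∈ S, psiI s i s.τ * z ∈ S) {σ : GK} (hσ : σ ∈ Ip p)
    (x : ρbar.V × ρbar.V) :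
    actU s c i S σ (QuotientAddGroup.mk x) = QuotientAddGroup.mk (defAct ρbar c σ x) :=
  quotAct_mk (defActHom ρbar c) (NM s i S) (trm_NM_le_comap s c i S hS hσ) x

theorem trm_isIAction_mul (s : SSStruct p ρbar) (i : Fin 2) :
    IsIAction (Pp p) (fun σ => (mulHom s i σ : k → k)) := by
  refine ⟨fun σ _ w w' => (mulHom s i σ).map_add w w', fun w => ?_, fun σ hσ τ hτ w => ?_⟩
  · simp [trm_psiI_one]
  · simp [trm_psiI_mul s i hσ hτ, mul_assoc]

theorem trm_isIAction_actW (s : SSStruct p ρbar) (i : Fin 2) (S : AddSubgroup k)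
    (hS : ∀ z ∈ S, psiI s i s.τ * z ∈ S) : IsIAction (Pp p) (actW s i S) :=
  trm_isIAction_quotAct (Pp p) (mulHom s i) (trm_isIAction_mul s i) S
    (fun _ hσ => trm_S_le_comap s i S hS hσ)

theorem trm_isIAction_actU (s : SSStruct p ρbar) (c : GK → Module.End k ρbar.V)
    (hc : ∀ σ τ : GK, c (σ * τ) = c σ + ρbar.ρ σ * c τ * ρbar.ρ σ⁻¹) (i : Fin 2)
    (S : AddSubgroup k) (hS : ∀ z ∈ S, psiI s i s.τ * z ∈ S) :
    IsIAction (Pp p) (actU s c i S) :=
  trm_isIAction_quotAct (Pp p) (defActHom ρbar c) (trm_isIAction_defAct (Pp p) c hc) _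
    (fun _ hσ => trm_NM_le_comap s c i S hS hσ)

theorem trm_augI_actU (s : SSStruct p ρbar) (c : GK → Module.End k ρbar.V) (i : Fin 2)
    (S : AddSubgroup k) (hS : ∀ z ∈ S, psiI s i s.τ * z ∈ S)
    (u : (ρbar.V × ρbar.V) ⧸ NM s i S) : u ∈ augI (Pp p) (actU s c i S) :=
  trm_augI_quotAct (Pp p) (defActHom ρbar c) _ (fun _ hσ => trm_NM_le_comap s c i S hS hσ)
    (trm_augI_defAct s c) u

/-- `z ↦ (0, z • b i)`. -/
noncomputable def jW (s : SSStruct p ρbar) (i : Fin 2) : k →+ ρbar.V × ρbar.V where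
  toFun := fun z => ((0 : ρbar.V), z • s.b i)
  map_zero' := by simp
  map_add' := fun z w => by simp [add_smul]

@[simp] theorem jW_apply (s : SSStruct p ρbar) (i : Fin 2) (z : k) :
    jW s i z = ((0 : ρbar.V), z • s.b i) := rfl

theorem trm_jW_mem (s : SSStruct p ρbar) (i : Fin 2) (S : AddSubgroup k) (z : k) :
    jW s i z ∈ NM s i S ↔ z ∈ S := by
  rw [mem_NM]
  simp

/-- The embedding `W ↪ U`. -/
noncomputable def iW (s : SSStruct p ρbar) (i : Fin 2) (S : AddSubgroup k) :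
    k ⧸ S →+ (ρbar.V × ρbar.V) ⧸ NM s i S :=
  QuotientAddGroup.map S (NM s i S) (jW s i) (fun z hz => (trm_jW_mem s i S z).2 hz)

theorem iW_mk (s : SSStruct p ρbar) (i : Fin 2) (S : AddSubgroup k) (z : k) :
    iW s i S (QuotientAddGroup.mk z) = QuotientAddGroup.mk ((0 : ρbar.V), z • s.b i) := rfl

theorem iW_injective (s : SSStruct p ρbar) (i : Fin 2) (S : AddSubgroup k) :
    Function.Injective (iW s i S) := by
  rw [injective_iff_map_eq_zero]
  intro w hw
  induction w using QuotientAddGroup.induction_on with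
  | H z =>
    rw [iW_mk, QuotientAddGroup.eq_zero_iff] at hw
    rw [QuotientAddGroup.eq_zero_iff]
    exact (trm_jW_mem s i S z).1 hw

/-- Every class of a `(0, v)` is in the image of `W`. -/
theorem trm_mk_zero_eq (s : SSStruct p ρbar) (i : Fin 2) (S : AddSubgroup k) (v : ρbar.V) :
    (QuotientAddGroup.mk ((0 : ρbar.V), v) : (ρbar.V × ρbar.V) ⧸ NM s i S)
      = iW s i S (QuotientAddGroup.mk (s.b.repr v i)) := by
  rw [iW_mk, QuotientAddGroup.eq, mem_NM]
  refine ⟨by simp, ?_⟩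
  simp

theorem iW_equivariant (s : SSStruct p ρbar) (c : GK → Module.End k ρbar.V) (i : Fin 2)
    (S : AddSubgroup k) (hS : ∀ z ∈ S, psiI s i s.τ * z ∈ S) {σ : GK} (hσ : σ ∈ Ip p)
    (w : k ⧸ S) : iW s i S (actW s i S σ w) = actU s c i S σ (iW s i S w) := by
  induction w using QuotientAddGroup.induction_on with
  | H z =>
    rw [actW_mk s i S hS hσ, iW_mk, iW_mk, actU_mk s c i S hS hσ]
    congr 1
    simp [defAct, trm_diag s i hσ, smul_smul, mul_comm]

/-! ### Part C3: `W = k ⧸ S` is simple and cyclic -/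

theorem trm_psi_tau_pow (s : SSStruct p ρbar) : s.ψ s.τ ^ (p ^ 2) = s.ψ s.τ :=
  s.fp2 s.τ s.τ_mem

theorem trm_psiI_tau_ne_zero (s : SSStruct p ρbar) (i : Fin 2) : psiI s i s.τ ≠ 0 := by
  unfold psiI
  split_ifs
  · exact s.ne_zero
  · exact pow_ne_zero _ s.ne_zero

/-- The character of `τ` on the line `i` has order at least `p² - 1`. -/
theorem trm_psiI_tau_ord (s : SSStruct p ρbar) (i : Fin 2) (n : ℕ) (hn : 0 < n)
    (h : psiI s i s.τ ^ n = 1) : p ^ 2 - 1 ≤ n := by
  unfold psiI at h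
  split_ifs at h
  · exact s.ord n hn h
  · apply s.ord n hn
    have h1 : ((s.ψ s.τ ^ p) ^ n) ^ p = 1 := by rw [h, one_pow]
    rw [← pow_mul, ← pow_mul] at h1
    have e : p * (n * p) = p ^ 2 * n := by ring
    rw [e, pow_mul, trm_psi_tau_pow s] at h1
    exact h1

/-- The quadratic equation of the character of `τ`. -/
theorem trm_psiI_quad (s : SSStruct p ρbar) (i : Fin 2) :
    ∃ t n : ℤ, psiI s i s.τ * psiI s i s.τ = (t : k) * psiI s i s.τ - (n : k) := by
  obtain ⟨t, n, ht, hn, -⟩ := s.ϖ_char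
  refine ⟨t, n, ?_⟩
  rw [ht, hn]
  unfold psiI
  split_ifs
  · ring
  · have e : s.ψ s.τ ^ p * s.ψ s.τ ^ p
        = (s.ψ s.τ + s.ψ s.τ ^ p) * s.ψ s.τ ^ p - s.ψ s.τ ^ (p + 1) := by ring
    exact e

theorem trm_card_W (S : AddSubgroup k) : Nat.card (k ⧸ S) = S.index :=
  (AddSubgroup.index_eq_card S).symm

theorem trm_iterate_actW (s : SSStruct p ρbar) (i : Fin 2) (S : AddSubgroup k)
    (hS : ∀ z ∈ S, psiI s i s.τ * z ∈ S) (n : ℕ) (z : k) :
    (actW s i S s.τ)^[n] (QuotientAddGroup.mk z) = QuotientAddGroup.mk (psiI s i s.τ ^ n * z) := by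
  induction n generalizing z with
  | zero => simp
  | succ n ih =>
    rw [Function.iterate_succ_apply, actW_mk s i S hS s.τ_mem, ih, pow_succ, mul_assoc]

theorem trm_cyclic_W (s : SSStruct p ρbar) (i : Fin 2) (S : AddSubgroup k)
    (hS : ∀ z ∈ S, psiI s i s.τ * z ∈ S) :
    ∃ τ₀ ∈ (Pp p).inertiaSubgroupIn ℚ, ∀ σ ∈ (Pp p).inertiaSubgroupIn ℚ, ∃ n : ℕ,
      ∀ w : k ⧸ S, actW s i S σ w = (actW s i S τ₀)^[n] w := by
  refine ⟨s.τ, s.τ_mem, fun σ hσ => ?_⟩
  obtain ⟨n, hn⟩ := trm_psiI_gen s i hσ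
  refine ⟨n, fun w => ?_⟩
  induction w using QuotientAddGroup.induction_on with
  | H z => rw [actW_mk s i S hS hσ, trm_iterate_actW s i S hS, hn]

theorem trm_simple_W [Finite k] (s : SSStruct p ρbar) (i : Fin 2) (S : AddSubgroup k)
    (hS : ∀ z ∈ S, psiI s i s.τ * z ∈ S) (hidx : S.index = p ^ 2) :
    ∀ N : AddSubgroup (k ⧸ S),
      (∀ σ ∈ (Pp p).inertiaSubgroupIn ℚ, ∀ n ∈ N, actW s i S σ n ∈ N) → N = ⊥ ∨ N = ⊤ := by
  intro N hN
  have hT : ∀ z ∈ N.comap (QuotientAddGroup.mk' S), psiI s i s.τ * z ∈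
      N.comap (QuotientAddGroup.mk' S) := by
    intro z hz
    rw [AddSubgroup.mem_comap] at hz ⊢
    have := hN s.τ s.τ_mem _ hz
    rwa [QuotientAddGroup.mk'_apply, actW_mk s i S hS s.τ_mem] at this
  have hST : S ≤ N.comap (QuotientAddGroup.mk' S) := by
    intro z hz
    rw [AddSubgroup.mem_comap, QuotientAddGroup.mk'_apply,
      (QuotientAddGroup.eq_zero_iff z).2 hz]
    exact N.zero_mem
  rcases trc_simple (psiI s i s.τ) (p ^ 2) (trm_psiI_tau_ne_zero s i) (trm_psiI_tau_ord s i) S hS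
    hidx _ hST hT with h | h
  · left
    rw [eq_bot_iff]
    intro w hw
    induction w using QuotientAddGroup.induction_on with
    | H z =>
      rw [AddSubgroup.mem_bot]
      exact (QuotientAddGroup.eq_zero_iff z).2 (h hw)
  · right
    rw [eq_top_iff]
    intro w _
    induction w using QuotientAddGroup.induction_on with
    | H z =>
      have : z ∈ N.comap (QuotientAddGroup.mk' S) := by rw [h]; trivial
      exact this

end Fermat.Agent.S56.SS
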