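/-
S56, wall W4, case C, block TR (sub-architect helper37), ASSEMBLY: `HopfSideProp p` from the leaves
of the block (`TR/Defs.lean`) and `T3Prop`, `RedProp` of block D.

For an entry `(i, j)` and a subgroup `S` of `k` of index `p²`, stable under the character of the
line `k · b i`: `U = (V × V) ⧸ ({0} × {v | v_i ∈ S})` carries an `I`-order (quotient of the order of
the flat module `V × V`), `W = k ⧸ S ↪ U` is simple of order `p²`, so `T3` gives `Z` with
`v(Z a) = 1/(p² - 1)` on `W \ 0`.  The base point is `w = [(b j, 0)]`; `g ∈ I₁` translates it by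
`[c_ij(g)] ∈ W`.  SHARP (`i = j`) and CHEAP (`S = S' ⊓ u⁻¹ S'`, `N' = S'/S`) are the abstract forms.
-/
import Fermat.Agent.S56.W4.C.TR.Model

set_option autoImplicit false
set_option linter.unusedSectionVars false
set_option linter.style.haveILetI false

namespace Fermat.Agent.S56.SS

open Fermat.Agent.F4 ExtCitation Fermat.Agent.FFL Fermat.Agent.FlatMod Fermat.Agent.S56.SO

local notation "Kb" => AlgebraicClosure ℚ
local notation "GK" => (AlgebraicClosure ℚ ≃ₐ[ℚ] AlgebraicClosure ℚ)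

variable {p : ℕ} [Fact p.Prime] {k : Type} [Field k] [Finite k] {ρbar : ResidualGaloisRep k}

theorem tra_pos (p : ℕ) [Fact p.Prime] : 0 < p ^ 2 - 1 := by
  have := trm_lt_sq p
  omega

instance tra_finite_V (ρbar : ResidualGaloisRep k) : Finite ρbar.V :=
  Module.finite_of_finite k

/-- `quotAct` fixes `0`. -/
theorem tra_quotAct_zero {M : Type} [AddCommGroup M] (act : GK → M →+ M) (N : AddSubgroup M)
    (σ : GK) : quotAct act N σ 0 = 0 := by
  have h := quotAct_add act N σ 0 0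
  rw [add_zero] at h
  exact left_eq_add.1 h

/-- An `I`-action is injective. -/
theorem tra_act_ne_zero {P : ValuationSubring Kb} {W : Type} [AddCommGroup W]
    {act : GK → W → W} (hact : IsIAction P act) (h0 : ∀ σ, act σ 0 = 0) {σ : GK}
    (hσ : σ ∈ P.inertiaSubgroupIn ℚ) {w : W} (hw : w ≠ 0) : act σ w ≠ 0 := by
  intro h
  apply hw
  have h1 := hact.2.2 σ⁻¹ (inv_mem hσ) σ hσ w
  rw [inv_mul_cancel, hact.2.1, h, h0] at h1
  exact h1

/-- `ValGE` of `0`. -/
theorem tra_valGE_zero (P : ValuationSubring Kb) {n : ℕ} (hn : 0 < n) : ValGE p P 0 1 n := by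
  unfold ValGE
  rw [zero_pow hn.ne', zero_div]
  exact P.zero_mem

/-- `ValLE` is monotone in the numerator. -/
theorem tra_valLE_mono (P : ValuationSubring Kb) {y : Kb} {a a' b : ℕ} (h : ValLE p P y a b)
    (haa' : a ≤ a') : ValLE p P y a' b := by
  refine ⟨h.1, ?_⟩
  have e : (p : Kb) ^ a' / y ^ b = (p : Kb) ^ (a' - a) * ((p : Kb) ^ a / y ^ b) := by
    rw [← mul_div_assoc, ← pow_add, Nat.sub_add_cancel haa']
  rw [e]
  exact P.mul_mem _ _ (pow_mem (natCast_mem P p) _) h.2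

section Main

variable (hT3 : T3Prop p (Pp p)) (hRed : RedProp (Pp p)) (hHopf : IOrdHopfProp p (Pp p))
  (hSub : IOrdSubProp (Pp p)) (hQuot : IOrdQuotProp p (Pp p)) (hVal : ValOrbitProp p (Pp p))

include hT3 hHopf hSub hQuot in
/-- The order on `U` and the function `Z`. -/
theorem tra_exists_Z (s : SSStruct p ρbar) (hp2 : p ≠ 2) (c : GK → Module.End k ρbar.V)
    (hc : ∀ σ τ : GK, c (σ * τ) = c σ + ρbar.ρ σ * c τ * ρbar.ρ σ⁻¹)
    (hfl : IsFlatGaloisModule p (ρbar.V × ρbar.V) (defAct ρbar c))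
    (i : Fin 2) (S : AddSubgroup k) (hS : ∀ z ∈ S, psiI s i s.τ * z ∈ S)
    (hidx : S.index = p ^ 2) :
    ∃ (OU : IOrd (Pp p) ((ρbar.V × ρbar.V) ⧸ NM s i S) (actU s c i S))
      (Z : (ρbar.V × ρbar.V) ⧸ NM s i S → Kb), Z ∈ OU.alg ∧ Z 0 = 0 ∧
      ∀ w : k ⧸ S, w ≠ 0 → ValGE p (Pp p) (Z (iW s i S w)) 1 (p ^ 2 - 1) ∧
        ValLE p (Pp p) (Z (iW s i S w)) 1 (p ^ 2 - 1) := by
  have hp : p.Prime := Fact.out
  have hP : (Pp p).LiesOverPrime p := so_liesOver p
  obtain ⟨OM⟩ := hHopf hp hP (ρbar.V × ρbar.V) (defAct ρbar c) hfl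
  obtain ⟨OU, hOU⟩ := hQuot hp hP (ρbar.V × ρbar.V) (defAct ρbar c) OM
    ((ρbar.V × ρbar.V) ⧸ NM s i S) (QuotientAddGroup.mk' (NM s i S)) (actU s c i S)
    (trm_isIAction_defAct (Pp p) c hc) (QuotientAddGroup.mk'_surjective _)
    (fun σ hσ w => (actU_mk s c i S hS hσ w).symm)
  obtain ⟨OW, hOW⟩ := hSub ((ρbar.V × ρbar.V) ⧸ NM s i S) (actU s c i S) OU (k ⧸ S)
    (iW s i S) (actW s i S) (iW_injective s i S)
    (fun σ hσ n => iW_equivariant s c i S hS hσ n)
  obtain ⟨-, ZW, hZW, hZ0, hZv⟩ := hT3 hp hp2 hP (k ⧸ S) (actW s i S) OW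
    (trm_isIAction_actW s i S hS) (by rw [trm_card_W, hidx]) (trm_cyclic_W s i S hS)
    (trm_simple_W s i S hS hidx)
  obtain ⟨Z, hZ, hZeq⟩ := (hOW ZW).1 hZW
  refine ⟨OU, Z, hZ, ?_, fun w hw => ?_⟩
  · have := congrFun hZeq 0
    rw [map_zero] at this
    rw [← this, hZ0]
  · have := congrFun hZeq w
    rw [← this]
    exact hZv w hw

include hRed hVal in
/-- All functions of the order on `U` have valuation `≥ 1/(p² - 1)` on `W`. -/
theorem tra_valGE (s : SSStruct p ρbar) (c : GK → Module.End k ρbar.V)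
    (hc : ∀ σ τ : GK, c (σ * τ) = c σ + ρbar.ρ σ * c τ * ρbar.ρ σ⁻¹)
    (i : Fin 2) (S : AddSubgroup k) (hS : ∀ z ∈ S, psiI s i s.τ * z ∈ S)
    (hidx : S.index = p ^ 2)
    (OU : IOrd (Pp p) ((ρbar.V × ρbar.V) ⧸ NM s i S) (actU s c i S)) :
    ∀ a ∈ (iW s i S).range, ∀ Y ∈ OU.alg, ValGE p (Pp p) (Y a - Y 0) 1 (p ^ 2 - 1) := by
  classical
  have hp : p.Prime := Fact.out
  have hP : (Pp p).LiesOverPrime p := so_liesOver p
  rintro _ ⟨a', rfl⟩ Y hY
  by_cases ha : a' = 0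
  · rw [ha, map_zero, sub_self]
    exact tra_valGE_zero (Pp p) (tra_pos p)
  letI : Fintype (k ⧸ S) := Fintype.ofFinite _
  have hactU := trm_isIAction_actU s c hc i S hS
  refine hVal hp hP _ (((Finset.univ : Finset (k ⧸ S)).erase 0).image
    (fun b => Y (iW s i S b) - Y 0)) (p ^ 2 - 1)
    (hRed _ _ OU hactU _ (trm_augI_actU s c i S hS _) Y hY) (fun σ hσ => ?_) ?_ (tra_pos p)
  · rw [Finset.mem_image]
    refine ⟨actW s i S σ a', ?_, ?_⟩
    · rw [Finset.mem_erase]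
      exact ⟨tra_act_ne_zero (trm_isIAction_actW s i S hS)
        (fun σ => tra_quotAct_zero _ _ σ) hσ ha, Finset.mem_univ _⟩
    · rw [map_sub, ← OU.equiv Y hY σ hσ, ← OU.equiv Y hY σ hσ, iW_equivariant s c i S hS hσ]
      congr 2
      exact (tra_quotAct_zero _ _ σ).symm
  · refine le_trans Finset.card_image_le ?_
    rw [Finset.card_erase_of_mem (Finset.mem_univ _), Finset.card_univ,
      ← Nat.card_eq_fintype_card, trm_card_W, hidx]

/-- The translation of the base point `[(b j, 0)]` by an element of `I₁`. -/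
theorem tra_actU_base (s : SSStruct p ρbar) (c : GK → Module.End k ρbar.V)
    (i j : Fin 2) (S : AddSubgroup k) (hS : ∀ z ∈ S, psiI s i s.τ * z ∈ S) {h : GK}
    (hh : h ∈ I1 s) :
    actU s c i S h (QuotientAddGroup.mk (s.b j, (0 : ρbar.V)))
      = QuotientAddGroup.mk (s.b j, (0 : ρbar.V))
        + iW s i S (QuotientAddGroup.mk (ent s c i j h)) := by
  rw [actU_mk s c i S hS hh.1]
  have e : defAct ρbar c h (s.b j, (0 : ρbar.V))
      = (s.b j, (0 : ρbar.V)) + ((0 : ρbar.V), c h (s.b j)) := by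
    simp [defAct, trm_rho_I1 s hh]
  rw [e, QuotientAddGroup.mk_add, trm_mk_zero_eq s i S]
  rfl

/-- Elements of `I₁` act trivially on `W`. -/
theorem tra_actW_I1 (s : SSStruct p ρbar) (i : Fin 2) (S : AddSubgroup k)
    (hS : ∀ z ∈ S, psiI s i s.τ * z ∈ S) {h : GK} (hh : h ∈ I1 s) (w : k ⧸ S) :
    actW s i S h w = w := by
  induction w using QuotientAddGroup.induction_on with
  | H z => rw [actW_mk s i S hS hh.1, trm_psiI_eq_one s i hh.2, one_mul]

end Main

section Final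

variable (hT3 : T3Prop p (Pp p)) (hRed : RedProp (Pp p)) (hHopf : IOrdHopfProp p (Pp p))
  (hSub : IOrdSubProp (Pp p)) (hQuot : IOrdQuotProp p (Pp p)) (hVal : ValOrbitProp p (Pp p))
  (hSharp : SharpAbsProp p (Pp p)) (hCheap : CheapAbsProp p (Pp p))

include hT3 hRed hHopf hSub hQuot hVal hSharp in
/-- **SHARP** for the entry `(i, i)` and a subgroup stable under the character of the line `i`. -/
theorem tra_sharp (s : SSStruct p ρbar) (hp2 : p ≠ 2) (c : GK → Module.End k ρbar.V)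
    (hc : ∀ σ τ : GK, c (σ * τ) = c σ + ρbar.ρ σ * c τ * ρbar.ρ σ⁻¹)
    (hfl : IsFlatGaloisModule p (ρbar.V × ρbar.V) (defAct ρbar c))
    (i : Fin 2) (S : AddSubgroup k) (hS : ∀ z ∈ S, psiI s i s.τ * z ∈ S)
    (hidx : S.index = p ^ 2) (g : GK) (hg : g ∈ I1 s) (hgS : ent s c i i g ∉ S) :
    ∃ x ∈ Pp p, (∀ h ∈ I1 s, ent s c i i h ∈ S → h x = x) ∧
      ValLE p (Pp p) (g x - x) 1 (p ^ 2 - 1) := by
  have hp : p.Prime := Fact.out
  have hP : (Pp p).LiesOverPrime p := so_liesOver p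
  obtain ⟨OU, Z, hZ, hZ0, hZv⟩ := tra_exists_Z hT3 hHopf hSub hQuot s hp2 c hc hfl i S hS hidx
  have hactU := trm_isIAction_actU s c hc i S hS
  set w : (ρbar.V × ρbar.V) ⧸ NM s i S := QuotientAddGroup.mk (s.b i, (0 : ρbar.V)) with hw
  have hne : (QuotientAddGroup.mk (ent s c i i g) : k ⧸ S) ≠ 0 := fun h =>
    hgS ((QuotientAddGroup.eq_zero_iff _).1 h)
  have hgw : actU s c i S g w = w + iW s i S (QuotientAddGroup.mk (ent s c i i g)) :=
    tra_actU_base s c i i S hS hg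
  have key := hSharp hp hP _ (actU s c i S) OU (iW s i S).range (p ^ 2 - 1) Z (tra_pos p) hZ hZ0
    (by
      rintro _ ⟨a', rfl⟩ ha
      exact (hZv a' (fun h => ha (by rw [h, map_zero]))).2)
    (tra_valGE hRed hVal s c hc i S hS hidx OU) w g
    (fun f hf => hRed _ _ OU hactU _ (trm_augI_actU s c i S hS _) f hf) hg.1
    (by rw [hgw, add_sub_cancel_left]; exact ⟨_, rfl⟩)
    (by
      rw [hgw]
      intro h
      exact hne ((iW_injective s i S) (by rw [map_zero]; exact left_eq_add.1 h.symm)))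
  refine ⟨Z w, OU.int Z hZ w, fun h hh hhS => ?_, key⟩
  rw [← OU.equiv Z hZ h hh.1, tra_actU_base s c i i S hS hh,
    (QuotientAddGroup.eq_zero_iff _).2 hhS, map_zero, add_zero]

include hT3 hRed hHopf hSub hQuot hVal hCheap in
/-- **CHEAP** for the entry `(i, j)` and a subgroup of index `p`. -/
theorem tra_cheap (s : SSStruct p ρbar) (hp2 : p ≠ 2) (c : GK → Module.End k ρbar.V)
    (hc : ∀ σ τ : GK, c (σ * τ) = c σ + ρbar.ρ σ * c τ * ρbar.ρ σ⁻¹)
    (hfl : IsFlatGaloisModule p (ρbar.V × ρbar.V) (defAct ρbar c))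
    (i j : Fin 2) (S' : AddSubgroup k) (hidx' : S'.index = p) (g : GK) (hg : g ∈ I1 s)
    (hgS : ent s c i j g ∉ S') :
    ∃ x ∈ Pp p, (∀ h ∈ I1 s, ent s c i j h ∈ S' → h x = x) ∧
      ValLE p (Pp p) (g x - x) p (p ^ 2 - 1) := by
  classical
  have hp : p.Prime := Fact.out
  have hP : (Pp p).LiesOverPrime p := so_liesOver p
  obtain ⟨t, n, hquad⟩ := trm_psiI_quad s i
  set S : AddSubgroup k := coreS (psiI s i s.τ) S' with hSdef
  have hS : ∀ z ∈ S, psiI s i s.τ * z ∈ S := trc_coreS_stable _ t n hquad S'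
  have hSS' : S ≤ S' := coreS_le _ S'
  have hidx : S.index = p ^ 2 :=
    trc_coreS_index p (trm_two_le p) _ (trm_psiI_tau_ne_zero s i) (trm_psiI_tau_ord s i) t n
      hquad S' hidx'
  obtain ⟨OU, Z, hZ, hZ0, hZv⟩ := tra_exists_Z hT3 hHopf hSub hQuot s hp2 c hc hfl i S hS hidx
  have hactU := trm_isIAction_actU s c hc i S hS
  set w : (ρbar.V × ρbar.V) ⧸ NM s i S := QuotientAddGroup.mk (s.b j, (0 : ρbar.V)) with hw
  letI : Fintype (k ⧸ S) := Fintype.ofFinite _
  set Q : AddSubgroup (k ⧸ S) := S'.map (QuotientAddGroup.mk' S) with hQ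
  set N' : Finset ((ρbar.V × ρbar.V) ⧸ NM s i S) :=
    ((Finset.univ : Finset (k ⧸ S)).filter (fun q => q ∈ Q)).image (iW s i S) with hN'
  have hmemN' : ∀ u, u ∈ N' ↔ ∃ q ∈ Q, iW s i S q = u := by
    intro u
    rw [hN', Finset.mem_image]
    constructor
    · rintro ⟨q, hq, rfl⟩
      exact ⟨q, (Finset.mem_filter.1 hq).2, rfl⟩
    · rintro ⟨q, hq, rfl⟩
      exact ⟨q, Finset.mem_filter.2 ⟨Finset.mem_univ _, hq⟩, rfl⟩
  have hcard : N'.card ≤ p := by
    refine le_trans Finset.card_image_le ?_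
    have h1 : Nat.card Q = p := trc_card_image p hp.pos S S' hSS' hidx hidx'
    have h2 : Nat.card Q = ((Finset.univ : Finset (k ⧸ S)).filter (fun q => q ∈ Q)).card := by
      rw [Nat.card_eq_fintype_card, Fintype.card_subtype]
    rw [← h2, h1]
  have hmkQ : ∀ z : k, (QuotientAddGroup.mk z : k ⧸ S) ∈ Q ↔ z ∈ S' := by
    intro z
    constructor
    · rintro ⟨z', hz', hzz'⟩
      have h1 : -z' + z ∈ S := (QuotientAddGroup.eq (s := S)).1 hzz'
      have e : z = z' + (-z' + z) := by ring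
      rw [e]
      exact S'.add_mem hz' (hSS' h1)
    · intro hz
      exact ⟨z, hz, rfl⟩
  have hbase : ∀ h ∈ I1 s, actU s c i S h w - w
      = iW s i S (QuotientAddGroup.mk (ent s c i j h)) := by
    intro h hh
    rw [tra_actU_base s c i j S hS hh, add_sub_cancel_left]
  have hfix : ∀ h ∈ I1 s, ∀ u ∈ N', actU s c i S h u = u := by
    intro h hh u hu
    obtain ⟨q, -, rfl⟩ := (hmemN' u).1 hu
    rw [← iW_equivariant s c i S hS hh.1, tra_actW_I1 s i S hS hh]
  obtain ⟨x, hxP, hxv, hxfix⟩ := hCheap hp hP _ (actU s c i S) OU (iW s i S).range (p ^ 2 - 1) Z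
    (tra_pos p) hZ hZ0
    (by
      rintro _ ⟨a', rfl⟩ ha
      exact (hZv a' (fun h => ha (by rw [h, map_zero]))).2)
    (tra_valGE hRed hVal s c hc i S hS hidx OU) N' w g
    (fun f hf => hRed _ _ OU hactU _ (trm_augI_actU s c i S hS _) f hf)
    ((hmemN' 0).2 ⟨0, Q.zero_mem, map_zero _⟩)
    (fun u hu => by
      obtain ⟨q, -, rfl⟩ := (hmemN' u).1 hu
      exact ⟨q, rfl⟩)
    (fun u hu v hv => by
      obtain ⟨q, hq, rfl⟩ := (hmemN' u).1 hu
      obtain ⟨q', hq', rfl⟩ := (hmemN' v).1 hv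
      exact (hmemN' _).2 ⟨q + q', Q.add_mem hq hq', map_add _ _ _⟩)
    hg.1 (hfix g hg) (fun u v => quotAct_add _ _ g u v)
    (by rw [hbase g hg]; exact ⟨_, rfl⟩)
    (by
      rw [hbase g hg]
      intro h
      obtain ⟨q, hq, hqe⟩ := (hmemN' _).1 h
      rw [(iW_injective s i S) hqe] at hq
      exact hgS ((hmkQ _).1 hq))
  refine ⟨x, hxP, fun h hh hhS => ?_, tra_valLE_mono (Pp p) hxv hcard⟩
  refine hxfix h hh.1 (hfix h hh) (fun u v => quotAct_add _ _ h u v) ?_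
  rw [hbase h hh]
  exact (hmemN' _).2 ⟨_, (hmkQ _).2 hhS, rfl⟩

include hT3 hRed hHopf hSub hQuot hVal hSharp hCheap in
/-- **Block TR**: `HopfSideProp p` from the leaves. -/
theorem hopfSideProp_of_leaves : HopfSideProp p := by
  intro k _ _ ρbar s hp2 c hc hfl
  refine ⟨fun i j S' hidx' g hg hgS =>
    tra_cheap hT3 hRed hHopf hSub hQuot hVal hCheap s hp2 c hc hfl i j S' hidx' g hg hgS,
    fun i S hidx hS g hg hgS => ?_⟩
  refine tra_sharp hT3 hRed hHopf hSub hQuot hVal hSharp s hp2 c hc hfl i S ?_ hidx g hg hgS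
  intro z hz
  unfold psiI
  split_ifs
  · exact hS s.τ s.τ_mem z hz
  · rw [← trm_psi_pow s s.τ_mem]
    exact hS _ (pow_mem s.τ_mem p) z hz

end Final

end Fermat.Agent.S56.SS
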