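/-
S56, wall W4, case C, block TR, leaf SHARP (owner: helper25): `sharpAbsProp : SharpAbsProp p P`.

From the translation formula (`Lib/FFL/FB/Transl.lean`, `FFL.TR.sharp`) with `π := Z a`,
`a = act g w - w`: `v(Z a) = 1/n` exactly, `v(Y a - Y 0) ≥ 1/n = v(π)` for all `Y` of the order, so
`g (Z w) - Z w = Z (w + a) - Z w` is `π` times a unit.

Also: the dictionary between the power forms `ValGE` / `ValLE` and the valuation of `P`
(`trh_valGE_iff`, `trh_valLE_iff`), used by the leaf CHEAP.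
-/
import Fermat.Agent.S56.W4.C.TR.Defs
import Fermat.Agent.Lib.FFL.FB.Transl

set_option autoImplicit false

namespace Fermat.Agent.S56.SS

open Fermat.Agent.F4 ExtCitation Fermat.Agent.FFL Fermat.Agent.FlatMod

local notation "Kb" => AlgebraicClosure ℚ
local notation "GK" => (AlgebraicClosure ℚ ≃ₐ[ℚ] AlgebraicClosure ℚ)

/-! ### `ValGE`, `ValLE` in terms of the valuation -/

section Val

variable {p : ℕ} (P : ValuationSubring Kb)

theorem trh_p_ne_zero (hp : p.Prime) : (p : Kb) ≠ 0 := Nat.cast_ne_zero.mpr hp.ne_zero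

theorem trh_val_p_ne_zero (hp : p.Prime) : P.valuation (p : Kb) ≠ 0 :=
  (Valuation.ne_zero_iff _).mpr (trh_p_ne_zero hp)

theorem trh_valGE_iff (hp : p.Prime) (x : Kb) (a b : ℕ) :
    ValGE p P x a b ↔ P.valuation x ^ b ≤ P.valuation (p : Kb) ^ a := by
  unfold ValGE
  rw [← ValuationSubring.valuation_le_one_iff, map_div₀, map_pow, map_pow]
  exact div_le_one₀ (zero_lt_iff.mpr (pow_ne_zero _ (trh_val_p_ne_zero P hp)))

theorem trh_valLE_iff (x : Kb) (a b : ℕ) :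
    ValLE p P x a b ↔ x ≠ 0 ∧ P.valuation (p : Kb) ^ a ≤ P.valuation x ^ b := by
  unfold ValLE
  constructor
  · rintro ⟨hx, h⟩
    refine ⟨hx, ?_⟩
    rw [← ValuationSubring.valuation_le_one_iff, map_div₀, map_pow, map_pow] at h
    exact (div_le_one₀ (zero_lt_iff.mpr (pow_ne_zero _
      ((Valuation.ne_zero_iff _).mpr hx)))).mp h
  · rintro ⟨hx, h⟩
    refine ⟨hx, ?_⟩
    rw [← ValuationSubring.valuation_le_one_iff, map_div₀, map_pow, map_pow]
    exact (div_le_one₀ (zero_lt_iff.mpr (pow_ne_zero _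
      ((Valuation.ne_zero_iff _).mpr hx)))).mpr h

/-- `x / y ∈ P` in terms of the valuation. -/
theorem trh_div_mem_iff {x y : Kb} (hy : y ≠ 0) :
    x / y ∈ P ↔ P.valuation x ≤ P.valuation y := by
  rw [← ValuationSubring.valuation_le_one_iff, map_div₀]
  exact div_le_one₀ (zero_lt_iff.mpr ((Valuation.ne_zero_iff _).mpr hy))

/-- `x / y` is a unit of `P` iff `v(x) = v(y)`. -/
theorem trh_isUnitOf_div_iff {x y : Kb} (hy : y ≠ 0) :
    TR.IsUnitOf P (x / y) ↔ P.valuation x = P.valuation y := by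
  rw [TR.isUnitOf_iff, map_div₀]
  exact div_eq_one_iff_eq ((Valuation.ne_zero_iff _).mpr hy)

/-- A nonunit in terms of `ValGE`: `v(x) ≥ 1/n` implies `x ∈ 𝔪`. -/
theorem trh_mem_nonunits_of_valGE (hp : p.Prime) (hP : P.LiesOverPrime p) {x : Kb} {n : ℕ}
    (h : ValGE p P x 1 n) : x ∈ P.nonunits := by
  rw [trh_valGE_iff P hp, pow_one] at h
  rw [ValuationSubring.mem_nonunits_iff]
  have hpv : P.valuation (p : Kb) < 1 := (ValuationSubring.mem_nonunits_iff P).mp hP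
  by_contra hx
  rw [not_lt] at hx
  have h1 : (1 : _) ≤ P.valuation x ^ n := one_le_pow₀ hx
  exact absurd (h1.trans h) (not_le.mpr hpv)

end Val

/-! ### SHARP -/

/-- The valuation data of SHARP / CHEAP at a nonzero `a ∈ W'`: `v(Z a) = 1/n` exactly, and
`v(Y a' - Y 0) ≥ v(Z a)` for `a' ∈ W'`. -/
theorem trh_data {p : ℕ} (P : ValuationSubring Kb) (hp : p.Prime)
    {U : Type} [AddCommGroup U] {act : GK → U → U} (B : IOrd P U act) (W' : AddSubgroup U)
    {n : ℕ} {Z : U → Kb} (hn : 0 < n) (hZ : Z ∈ B.alg) (hZ0 : Z 0 = 0)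
    (hle : ∀ a ∈ W', a ≠ 0 → ValLE p P (Z a) 1 n)
    (hge : ∀ a ∈ W', ∀ Y ∈ B.alg, ValGE p P (Y a - Y 0) 1 n)
    {a : U} (ha : a ∈ W') (ha0 : a ≠ 0) :
    Z a ≠ 0 ∧ P.valuation (Z a) ^ n = P.valuation (p : Kb) ∧
      ∀ a' ∈ W', ∀ Y ∈ B.alg, P.valuation (Y a' - Y 0) ≤ P.valuation (Z a) := by
  obtain ⟨hZa, h1⟩ := (trh_valLE_iff P _ _ _).mp (hle a ha ha0)
  rw [pow_one] at h1
  have h2 := (trh_valGE_iff P hp _ _ _).mp (hge a ha Z hZ)
  rw [pow_one, hZ0, sub_zero] at h2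
  have heq : P.valuation (Z a) ^ n = P.valuation (p : Kb) := le_antisymm h2 h1
  refine ⟨hZa, heq, fun a' ha' Y hY => ?_⟩
  have h3 := (trh_valGE_iff P hp _ _ _).mp (hge a' ha' Y hY)
  rw [pow_one, ← heq] at h3
  exact le_of_pow_le_pow_left₀ hn.ne' zero_le h3

/-- **SHARP** (abstract form). -/
theorem sharpAbsProp (p : ℕ) (P : ValuationSubring Kb) : SharpAbsProp p P := by
  intro hp _ U _ act B W' n Z hn hZ hZ0 hle hge w g hw hg hmem hne
  set a : U := act g w - w with ha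
  have ha0 : a ≠ 0 := fun h => hne (sub_eq_zero.mp h)
  obtain ⟨hZa, heq, hY⟩ := trh_data P hp B W' hn hZ hZ0 hle hge hmem ha0
  have hwa : act g w = w + a := by rw [ha]; abel
  have hgZ : g (Z w) = Z (w + a) := by rw [← hwa]; exact (B.equiv Z hZ g hg w).symm
  have hs := TR.sharp P B.comul (w := w) (a := a) hw (π := Z a)
    (fun Y hYB => (trh_div_mem_iff P hZa).mpr (hY a hmem Y hYB)) hZ
    ((trh_isUnitOf_div_iff P hZa).mpr (by rw [hZ0, sub_zero]))
  rw [trh_isUnitOf_div_iff P hZa] at hs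
  rw [hgZ, trh_valLE_iff, pow_one]
  refine ⟨?_, ?_⟩
  · intro h0
    rw [h0, map_zero] at hs
    exact (Valuation.ne_zero_iff _).mpr hZa hs.symm
  · rw [hs, heq]

end Fermat.Agent.S56.SS
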