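/-
S56, wall W4, case C, block TR, leaf CHEAP (helper37): the abstract form `CheapAbsProp` of
`TR/Defs.lean`, from helper25's norm trick (`Lib/FFL/FB/Transl.lean`: `cheap`).
-/
import Fermat.Agent.S56.W4.C.TR.Sharp

set_option autoImplicit false

namespace Fermat.Agent.S56.SS

open Fermat.Agent.F4 ExtCitation Fermat.Agent.FFL Fermat.Agent.FlatMod Fermat.Agent.FFL.TR

local notation "Kb" => AlgebraicClosure ℚ
local notation "GK" => (AlgebraicClosure ℚ ≃ₐ[ℚ] AlgebraicClosure ℚ)

variable {p : ℕ} {P : ValuationSubring Kb}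

/-- `x ^ n ∈ P` with `n > 0` implies `x ∈ P`. -/
theorem trs_mem_of_pow_mem {x : Kb} {n : ℕ} (hn : 0 < n) (h : x ^ n ∈ P) : x ∈ P := by
  rw [← ValuationSubring.valuation_le_one_iff] at h ⊢
  rw [map_pow] at h
  exact (pow_le_one_iff hn.ne').1 h

/-- If `v(y) ≥ 1/n` and `v(z) ≤ 1/n` then `y / z ∈ P`. -/
theorem trs_div_mem {y z : Kb} {n : ℕ} (hn : 0 < n) (hy : ValGE p P y 1 n)
    (hz : ValLE p P z 1 n) (hp0 : (p : Kb) ≠ 0) : y / z ∈ P := by
  apply trs_mem_of_pow_mem hn
  have e : (y / z) ^ n = (y ^ n / (p : Kb) ^ 1) * ((p : Kb) ^ 1 / z ^ n) := by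
    have hz0 : z ≠ 0 := hz.1
    rw [div_pow]
    field_simp
  rw [e]
  exact P.mul_mem _ _ hy hz.2

/-- An element of `P` with inverse in `P` is a unit. -/
theorem trs_isUnitOf {x : Kb} (h1 : x ∈ P) (h2 : x⁻¹ ∈ P) (hx : x ≠ 0) : IsUnitOf P x := by
  rw [isUnitOf_iff]
  rw [← ValuationSubring.valuation_le_one_iff] at h1 h2
  rw [map_inv₀] at h2
  have h3 : P.valuation x ≠ 0 := (Valuation.ne_zero_iff _).2 hx
  have h4 : 1 ≤ P.valuation x := by
    have := (inv_le_one₀ (zero_lt_iff.2 h3)).1 h2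
    exact this
  exact le_antisymm h1 h4

theorem trs_add_mem_nonunits {x y : Kb} (hx : x ∈ P.nonunits) (hy : y ∈ P.nonunits) :
    x + y ∈ P.nonunits := by
  rw [ValuationSubring.mem_nonunits_iff] at hx hy ⊢
  exact Valuation.map_add_lt _ hx hy

theorem trs_mem_of_mem_nonunits {x : Kb} (hx : x ∈ P.nonunits) : x ∈ P := by
  rw [ValuationSubring.mem_nonunits_iff] at hx
  rw [← ValuationSubring.valuation_le_one_iff]
  exact hx.le

/-- `v(x) ≥ 1/n` implies that `x` is a nonunit. -/
theorem trs_nonunit_of_valGE {x : Kb} {n : ℕ} (hP : P.LiesOverPrime p)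
    (h : ValGE p P x 1 n) (hp0 : (p : Kb) ≠ 0) : x ∈ P.nonunits := by
  rw [ValuationSubring.mem_nonunits_iff]
  by_contra hcon
  rw [not_lt] at hcon
  have h1 : (1 : P.ValueGroup) ≤ P.valuation x ^ n := one_le_pow₀ hcon
  have h2 : x ^ n = (p : Kb) * (x ^ n / (p : Kb) ^ 1) := by
    field_simp
  have h3 : P.valuation (x ^ n) < 1 := by
    rw [h2, map_mul]
    have hp1 : P.valuation (p : Kb) < 1 := (ValuationSubring.mem_nonunits_iff P).1 hP
    have hq : P.valuation (x ^ n / (p : Kb) ^ 1) ≤ 1 :=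
      (ValuationSubring.valuation_le_one_iff P _).2 h
    calc P.valuation (p : Kb) * P.valuation (x ^ n / (p : Kb) ^ 1)
        ≤ P.valuation (p : Kb) * 1 := by gcongr
      _ = P.valuation (p : Kb) := mul_one _
      _ < 1 := hp1
  rw [map_pow] at h3
  exact absurd h1 (not_le.2 h3)

/-- The kernel of reduction of an `I`-order is closed under addition. -/
theorem trs_add_redKer {U : Type} [AddCommGroup U] {act : GK → U → U} (B : IOrd P U act)
    {w s : U} (hw : ∀ f ∈ B.alg, f w - f 0 ∈ P.nonunits)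
    (hs : ∀ f ∈ B.alg, f s - f 0 ∈ P.nonunits) :
    ∀ f ∈ B.alg, f (w + s) - f 0 ∈ P.nonunits := by
  intro f hf
  obtain ⟨n, g, h, hg, hh, hgh⟩ := B.comul f hf
  have e1 : f (w + s) = ∑ i, g i w * h i s := hgh w s
  have e2 : f 0 = ∑ i, g i 0 * h i 0 := by
    have := hgh 0 0
    rwa [add_zero] at this
  have e3 : f (w + s) - f 0
      = ∑ i, ((g i w - g i 0) * h i s + (h i s - h i 0) * g i 0) := by
    rw [e1, e2, ← Finset.sum_sub_distrib]
    exact Finset.sum_congr rfl fun i _ => by ring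
  rw [e3]
  refine sum_mem_nonunits P _ _ fun i _ => trs_add_mem_nonunits ?_ ?_
  · exact mul_mem_nonunits P (hw _ (hg i)) (B.int _ (hh i) s)
  · exact mul_mem_nonunits P (hs _ (hh i)) (B.int _ (hg i) 0)

/-- Elementary symmetric functions of elements of `P` are in `P`. -/
theorem trs_esymm_mem (m : Multiset Kb) (hm : ∀ x ∈ m, x ∈ P) (j : ℕ) : m.esymm j ∈ P := by
  unfold Multiset.esymm
  refine Subring.multiset_sum_mem P.toSubring _ ?_
  intro y hy
  obtain ⟨t, ht, rfl⟩ := Multiset.mem_map.1 hy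
  refine Subring.multiset_prod_mem P.toSubring _ ?_
  intro x hx
  exact hm x (Multiset.mem_of_le (Multiset.mem_powersetCard.1 ht).1 hx)

/-- A ring homomorphism commutes with the elementary symmetric functions. -/
theorem trs_map_esymm (σ : GK) (m : Multiset Kb) (j : ℕ) :
    σ (m.esymm j) = (m.map σ).esymm j := by
  unfold Multiset.esymm
  rw [map_multiset_sum, Multiset.powersetCard_map, Multiset.map_map, Multiset.map_map]
  congr 1
  refine Multiset.map_congr rfl fun t _ => ?_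
  simp only [Function.comp_apply]
  exact map_multiset_prod σ t

/-- The Galois action on `esymmFun`. -/
theorem trs_act_esymmFun {U : Type} [AddCommGroup U] {act : GK → U → U} (B : IOrd P U act)
    {Z : U → Kb} (hZ : Z ∈ B.alg) (N' : Finset U) (j : ℕ) (w : U) {h : GK}
    (hh : h ∈ P.inertiaSubgroupIn ℚ) (hfix : ∀ s ∈ N', act h s = s)
    (hadd : ∀ u v : U, act h (u + v) = act h u + act h v) :
    h (esymmFun Z N' j w) = esymmFun Z N' j (act h w) := by
  unfold esymmFun
  rw [trs_map_esymm, Multiset.map_map]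
  congr 1
  refine Multiset.map_congr rfl fun s hs => ?_
  simp only [Function.comp_apply]
  have hs' : s ∈ N' := hs
  rw [← B.equiv Z hZ h hh, hadd, hfix s hs']

/-- **CHEAP, abstract form**. -/
theorem cheapAbsProp (p : ℕ) (P : ValuationSubring Kb) : CheapAbsProp p P := by
  classical
  intro hp hP U _ act B W' n Z hn hZ hZ0 hZv hYv N' w g hw h0 hN'W hN'add hg hgfix hgadd hgW hgN'
  have hp0 : (p : Kb) ≠ 0 := Nat.cast_ne_zero.2 hp.ne_zero
  set a : U := act g w - w with ha
  have ha0 : a ≠ 0 := fun h => hgN' (by rw [h]; exact h0)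
  have hZa := hZv a hgW ha0
  have hwa : w + a = act g w := by rw [ha]; abel
  have hsub : ∀ s ∈ N', a - s ∈ W' := fun s hs => W'.sub_mem hgW (hN'W s hs)
  have hsub0 : ∀ s ∈ N', a - s ≠ 0 := fun s hs h => hgN' (by rw [sub_eq_zero.1 h]; exact hs)
  obtain ⟨j, -, -, hj⟩ := cheap P B.comul (w := w) (a := a) N' h0 (π := Z a) hZa.1
    (fun s hs => trs_add_redKer B hw
      (fun f hf => trs_nonunit_of_valGE hP (hYv s (hN'W s hs) f hf) hp0))
    (fun s hs Y hY => trs_div_mem hn (hYv _ (hsub s hs) Y hY) hZa hp0) hZ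
    (fun s hs => by
      rw [hZ0, sub_zero]
      have hZs := hZv _ (hsub s hs) (hsub0 s hs)
      have hge : ∀ b ∈ W', ValGE p P (Z b) 1 n := fun b hb => by
        have := hYv b hb Z hZ
        rwa [hZ0, sub_zero] at this
      refine trs_isUnitOf (trs_div_mem hn (hge _ (hsub s hs)) hZa hp0) ?_
        (div_ne_zero hZs.1 hZa.1)
      rw [inv_div]
      exact trs_div_mem hn (hge a hgW) hZs hp0)
    (B.int Z hZ _)
  have hxP : esymmFun Z N' j w ∈ P :=
    trs_esymm_mem _ (fun x hx => by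
      obtain ⟨s, -, rfl⟩ := Multiset.mem_map.1 hx
      exact B.int Z hZ _) j
  refine ⟨esymmFun Z N' j w, hxP, ?_, fun h hh hfix hadd hhw => ?_⟩
  · rw [trs_act_esymmFun B hZ N' j w hg hgfix hgadd, ← hwa]
    set y : Kb := esymmFun Z N' j (w + a) - esymmFun Z N' j w with hy
    have hy0 : y ≠ 0 := by
      intro h
      apply hj
      rw [h, zero_div]
      exact (ValuationSubring.mem_nonunits_iff P).2 (by rw [map_zero]; exact zero_lt_one)
    have hinv : Z a ^ N'.card / y ∈ P := by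
      have h1 : ¬ P.valuation (y / Z a ^ N'.card) < 1 := fun h =>
        hj ((ValuationSubring.mem_nonunits_iff P).2 h)
      rw [not_lt] at h1
      rw [← ValuationSubring.valuation_le_one_iff, ← inv_div, map_inv₀]
      exact inv_le_one_of_one_le₀ h1
    refine ⟨hy0, ?_⟩
    have e : (p : Kb) ^ N'.card / y ^ n
        = ((p : Kb) ^ 1 / Z a ^ n) ^ N'.card * (Z a ^ N'.card / y) ^ n := by
      have h1 : Z a ≠ 0 := hZa.1
      rw [div_pow, div_pow, ← pow_mul, ← pow_mul, ← pow_mul, one_mul]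
      have e1 : Z a ^ (n * N'.card) = Z a ^ (N'.card * n) := by rw [mul_comm]
      rw [e1]
      have h2 : Z a ^ (N'.card * n) ≠ 0 := pow_ne_zero _ h1
      have h3 : y ^ n ≠ 0 := pow_ne_zero _ hy0
      field_simp
    rw [e]
    exact P.mul_mem _ _ (P.pow_mem hZa.2 _) (P.pow_mem hinv _)
  · rw [trs_act_esymmFun B hZ N' j w hh hfix hadd]
    have e : act h w = w + (act h w - w) := by abel
    rw [e]
    exact esymmFun_add Z N' j w _ (fun s hs => hN'add _ hhw s hs)

end Fermat.Agent.S56.SS
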