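/-
S56, wall W4, case C, block TR, leaf **TR1** (helper13): a finite flat Galois module carries an
`I`-order, namely the `R'`-span of a Hopf order (`Lib/FFL/Span.lean`, `Lib/FFL/EtMax.lean`,
`Lib/FFL/Red.lean`).
-/
import Fermat.Agent.S56.W4.C.TR.Defs
import Fermat.Agent.Lib.FFL.Span
import Fermat.Agent.Lib.FFL.EtMax
import Fermat.Agent.Lib.FFL.Red

set_option autoImplicit false

namespace Fermat.Agent.S56.SS

open Fermat.Agent.F4 ExtCitation Fermat.Agent.FFL Fermat.Agent.FlatMod

local notation "Kb" => AlgebraicClosure ℚ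
local notation "GK" => (AlgebraicClosure ℚ ≃ₐ[ℚ] AlgebraicClosure ℚ)

/-- The `R'`-span of a Hopf order, as a subalgebra of the functions. -/
noncomputable def iOrdHopfAlg {p : ℕ} {W : Type*} [AddCommGroup W] {act : GK → W → W}
    (P : ValuationSubring Kb) (O : HopfOrder p W act) :
    Subalgebra (inertiaRing P) (W → Kb) where
  carrier := (spanB P O : Submodule (inertiaRing P) (W → Kb))
  mul_mem' := fun hf hg => spanB_mul_mem P O hf hg
  one_mem' := spanB_one_mem P O
  add_mem' := fun hf hg => (spanB P O).add_mem hf hg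
  zero_mem' := (spanB P O).zero_mem
  algebraMap_mem' := fun r => spanB_const_mem P O r.2

theorem mem_iOrdHopfAlg {p : ℕ} {W : Type*} [AddCommGroup W] {act : GK → W → W}
    (P : ValuationSubring Kb) (O : HopfOrder p W act) (f : W → Kb) :
    f ∈ iOrdHopfAlg P O ↔ f ∈ spanB P O := Iff.rfl

theorem iOrdHopfAlg_toSubmodule {p : ℕ} {W : Type*} [AddCommGroup W] {act : GK → W → W}
    (P : ValuationSubring Kb) (O : HopfOrder p W act) :
    Subalgebra.toSubmodule (iOrdHopfAlg P O) = spanB P O := by
  ext f
  exact Iff.rfl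

/-- The `I`-order attached to a Hopf order. -/
noncomputable def iOrdOfHopfOrder {p : ℕ} [Fact p.Prime] {W : Type*} [AddCommGroup W]
    {act : GK → W → W} (P : ValuationSubring Kb) (hP : P.LiesOverPrime p)
    (O : HopfOrder p W act) : IOrd P W act where
  alg := iOrdHopfAlg P O
  fg := by
    rw [iOrdHopfAlg_toSubmodule, spanB_eq_span_range P hP O]
    exact Submodule.fg_span (Set.finite_range _)
  equiv := fun f hf σ hσ w => spanB_equiv P O hf σ hσ w
  int := fun f hf w => spanB_mem P hP O hf w
  comul := spanB_comulClosed P O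
  neg := fun f hf => spanB_comp_neg_mem P O hf
  span := by
    refine top_le_iff.1 ?_
    rw [← spanFun_span_eq_top O]
    refine Submodule.span_mono ?_
    rintro _ ⟨i, rfl⟩
    exact subset_spanB P O (spanFun_mem O i)

/-- **TR1**: a finite flat Galois module carries an `I`-order. -/
theorem iOrdHopfProp (p : ℕ) (P : ValuationSubring Kb) : IOrdHopfProp p P := by
  intro hp hP M _ _ act hflat
  have : Fact p.Prime := ⟨hp⟩
  obtain ⟨O⟩ := Fermat.Agent.FFL.nonempty_hopfOrder_of_isFlat hflat
  exact ⟨iOrdOfHopfOrder P hP O⟩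

end Fermat.Agent.S56.SS
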