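/-
S56, wall W4, case C, BLOCK TR, leaf TR3 (helper7): the quotient of an `I`-order by a subgroup.

For a surjective `π : W →+ Q` the functions `f` on `Q` with `f ∘ π` in the order `B` form an
`I`-order on `Q`.
* comultiplication: `B.alg` is the `R'`-span of a `ℚ̄`-independent family (`BasisProp`, block D,
  taken as a hypothesis), `R'` is a PID, so the translation-invariant part is
  comultiplication-closed (`comulClosed_transInv_subring`, Lib/FFL/Quot);
* finitely generated: `f ↦ f ∘ π` is injective into the Noetherian module `B.alg`;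
* span: averaging `A b (w) = ∑_{n ∈ ker π} b (w + n)`.
-/
import Fermat.Agent.S56.W4.C.TR.Defs
import Fermat.Agent.S56.W4.C.D.Basis
import Fermat.Agent.Lib.FFL.Quot
import Fermat.Agent.Lib.FFL.Base
import Fermat.Agent.Lib.FFL.Arith
import Fermat.Agent.Lib.FFL.Unr

set_option autoImplicit false

namespace Fermat.Agent.S56.SS

open Fermat.Agent.F4 ExtCitation Fermat.Agent.FFL Fermat.Agent.FlatMod

local notation "Kb" => AlgebraicClosure ℚ
local notation "GK" => (AlgebraicClosure ℚ ≃ₐ[ℚ] AlgebraicClosure ℚ)

section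

variable {P : ValuationSubring Kb} {W Q : Type} [AddCommGroup W] [AddCommGroup Q]
  {act : GK → W → W}

/-- The functions `f` on `Q` with `f ∘ π` in the order. -/
def quotAlg (B : IOrd P W act) (π : W →+ Q) : Subalgebra (inertiaRing P) (Q → Kb) where
  carrier := {f | (fun w => f (π w)) ∈ B.alg}
  mul_mem' := fun {f g} hf hg => B.alg.mul_mem hf hg
  add_mem' := fun {f g} hf hg => B.alg.add_mem hf hg
  algebraMap_mem' := fun r => B.alg.algebraMap_mem r

lemma mem_quotAlg (B : IOrd P W act) (π : W →+ Q) (f : Q → Kb) :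
    f ∈ quotAlg B π ↔ (fun w => f (π w)) ∈ B.alg := Iff.rfl

/-- A function invariant under translation by `ker π` descends to `Q`. -/
lemma transInv_desc (π : W →+ Q) (hsurj : Function.Surjective π) (G : W → Kb)
    (hG : TransInv {w : W | π w = 0} G) (w : W) :
    G (Function.surjInv hsurj (π w)) = G w := by
  have h1 : π (w - Function.surjInv hsurj (π w)) = 0 := by
    rw [map_sub, Function.surjInv_eq hsurj, sub_self]
  have h2 := hG (Function.surjInv hsurj (π w)) _ h1
  rw [add_sub_cancel] at h2
  exact h2.symm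

/-- The descent of a function along a section of `π`, as a linear map. -/
noncomputable def descLin (π : W →+ Q) (hsurj : Function.Surjective π) :
    (W → Kb) →ₗ[Kb] (Q → Kb) :=
  LinearMap.funLeft Kb Kb (Function.surjInv hsurj)

lemma descLin_apply (π : W →+ Q) (hsurj : Function.Surjective π) (G : W → Kb) (q : Q) :
    descLin π hsurj G q = G (Function.surjInv hsurj q) := rfl

lemma descLin_comp (π : W →+ Q) (hsurj : Function.Surjective π) (f : Q → Kb) :
    descLin π hsurj (fun w => f (π w)) = f := by
  funext q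
  rw [descLin_apply, Function.surjInv_eq hsurj]

variable [Fintype W] [DecidableEq Q]

/-- The kernel of `π` as a finset. -/
def kerFin (π : W →+ Q) : Finset W := Finset.univ.filter fun n => π n = 0

lemma mem_kerFin (π : W →+ Q) (n : W) : n ∈ kerFin π ↔ π n = 0 := by
  simp [kerFin]

/-- The averaging operator `A G (w) = ∑_{n ∈ ker π} G (w + n)`, as a linear map. -/
noncomputable def avgLin (π : W →+ Q) : (W → Kb) →ₗ[Kb] (W → Kb) where
  toFun G := fun w => ∑ n ∈ kerFin π, G (w + n)
  map_add' G G' := by
    funext w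
    simp only [Pi.add_apply, Finset.sum_add_distrib]
  map_smul' c G := by
    funext w
    simp only [Pi.smul_apply, smul_eq_mul, Finset.mul_sum, RingHom.id_apply]

lemma avgLin_apply (π : W →+ Q) (G : W → Kb) (w : W) :
    avgLin π G w = ∑ n ∈ kerFin π, G (w + n) := rfl

/-- The average is invariant under translation by `ker π`. -/
lemma avgLin_transInv (π : W →+ Q) (G : W → Kb) :
    TransInv {w : W | π w = 0} (avgLin π G) := by
  intro v w hw
  have hw' : π w = 0 := hw
  rw [avgLin_apply, avgLin_apply]
  refine Finset.sum_nbij' (fun n => w + n) (fun n => n - w) ?_ ?_ ?_ ?_ ?_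
  · intro n hn
    rw [mem_kerFin] at hn ⊢
    rw [map_add, hw', hn, add_zero]
  · intro n hn
    rw [mem_kerFin] at hn ⊢
    rw [map_sub, hw', hn, sub_zero]
  · intro n _
    simp
  · intro n _
    simp
  · intro n _
    rw [add_assoc]

/-- The average of an invariant function. -/
lemma avgLin_of_comp (π : W →+ Q) (f : Q → Kb) :
    avgLin π (fun w => f (π w)) = ((kerFin π).card : Kb) • fun w => f (π w) := by
  funext w
  rw [avgLin_apply, Pi.smul_apply, smul_eq_mul]
  have : ∀ n ∈ kerFin π, f (π (w + n)) = f (π w) := by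
    intro n hn
    rw [mem_kerFin] at hn
    rw [map_add, hn, add_zero]
  rw [Finset.sum_congr rfl this, Finset.sum_const, nsmul_eq_mul]

/-- Inertia permutes the kernel of `π`. -/
lemma sum_kerFin_act (B : IOrd P W act) (π : W →+ Q) (actQ : GK → Q → Q)
    (hact : IsIAction P act)
    (hπ : ∀ σ ∈ P.inertiaSubgroupIn ℚ, ∀ w : W, π (act σ w) = actQ σ (π w))
    (σ : GK) (hσ : σ ∈ P.inertiaSubgroupIn ℚ) (h : W → Kb) :
    ∑ n ∈ kerFin π, h (act σ n) = ∑ n ∈ kerFin π, h n := by
  obtain ⟨hadd, hone, hmul⟩ := hact
  have hσi : σ⁻¹ ∈ P.inertiaSubgroupIn ℚ := (P.inertiaSubgroupIn ℚ).inv_mem hσ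
  have hzero : ∀ τ ∈ P.inertiaSubgroupIn ℚ, act τ 0 = 0 := by
    intro τ hτ
    have := hadd τ hτ 0 0
    rw [add_zero] at this
    exact left_eq_add.1 this
  have hker : ∀ τ ∈ P.inertiaSubgroupIn ℚ, ∀ n : W, π n = 0 → π (act τ n) = 0 := by
    intro τ hτ n hn
    rw [hπ τ hτ, hn, ← map_zero π, ← hπ τ hτ, hzero τ hτ, map_zero]
  refine Finset.sum_nbij' (fun n => act σ n) (fun n => act σ⁻¹ n) ?_ ?_ ?_ ?_ ?_
  · intro n hn
    rw [mem_kerFin] at hn ⊢
    exact hker σ hσ n hn
  · intro n hn
    rw [mem_kerFin] at hn ⊢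
    exact hker σ⁻¹ hσi n hn
  · intro n _
    show act σ⁻¹ (act σ n) = n
    rw [← hmul σ⁻¹ hσi σ hσ, inv_mul_cancel, hone]
  · intro n _
    show act σ (act σ⁻¹ n) = n
    rw [← hmul σ hσ σ⁻¹ hσi, mul_inv_cancel, hone]
  · intro n _
    rfl

/-- The average of a function of the order is in the order. -/
lemma avgLin_mem (B : IOrd P W act) (π : W →+ Q) (actQ : GK → Q → Q)
    (hact : IsIAction P act)
    (hπ : ∀ σ ∈ P.inertiaSubgroupIn ℚ, ∀ w : W, π (act σ w) = actQ σ (π w))
    (β : W → Kb) (hβ : β ∈ B.alg) : avgLin π β ∈ B.alg := by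
  obtain ⟨m, g, h, hg, hh, hgh⟩ := B.comul β hβ
  have hc : ∀ i, (∑ n ∈ kerFin π, h i n) ∈ inertiaRing P := by
    intro i
    refine ⟨P.sum_mem fun n _ => B.int _ (hh i) n, fun σ hσ => ?_⟩
    rw [map_sum]
    have : ∀ n ∈ kerFin π, σ (h i n) = h i (act σ n) :=
      fun n _ => (B.equiv _ (hh i) σ hσ n).symm
    rw [Finset.sum_congr rfl this]
    exact sum_kerFin_act B π actQ hact hπ σ hσ (h i)
  have hsum : avgLin π β
      = ∑ i, (⟨∑ n ∈ kerFin π, h i n, hc i⟩ : inertiaRing P) • g i := by
    funext w
    rw [avgLin_apply, Finset.sum_apply]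
    have h1 : ∀ n ∈ kerFin π, β (w + n) = ∑ i, g i w * h i n := fun n _ => hgh w n
    rw [Finset.sum_congr rfl h1, Finset.sum_comm]
    refine Finset.sum_congr rfl fun i _ => ?_
    rw [← Finset.mul_sum, mul_comm]
    rfl
  rw [hsum]
  exact B.alg.sum_mem fun i _ => B.alg.smul_mem (hg i) _

end

/-- **TR3** (with `BasisProp`, block D, as a hypothesis). -/
theorem iOrdQuotProp_of (p : ℕ) (P : ValuationSubring Kb) (hB : BasisProp p P) :
    IOrdQuotProp p P := by
  classical
  intro hp hP W _ _ act B Q _ π actQ hact hsurj hπ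
  haveI : Fintype W := Fintype.ofFinite W
  haveI hpid : IsPrincipalIdealRing (inertiaRing P) :=
    inertiaRing_isPrincipalIdealRing hp.ne_zero hP (unrProp p hp P hP) (dvdProp hp hP)
  obtain ⟨b, hbmem, hli, hbspan⟩ := hB hp hP W act B hact
  -- `B.alg` is the `R'`-span of the basis
  have hset : ∀ F : W → Kb, F ∈ B.alg ↔
      F ∈ (Submodule.span (inertiaRing P) (Set.range b) : Submodule (inertiaRing P) (W → Kb)) := by
    intro F
    constructor
    · intro hF
      obtain ⟨c, hc, rfl⟩ := hbspan F hF
      refine Submodule.sum_mem _ fun i _ => ?_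
      have : c i • b i = (⟨c i, hc i⟩ : inertiaRing P) • b i := rfl
      rw [this]
      exact Submodule.smul_mem _ _ (Submodule.subset_span ⟨i, rfl⟩)
    · intro hF
      have hle : Submodule.span (inertiaRing P) (Set.range b) ≤ Subalgebra.toSubmodule B.alg := by
        refine Submodule.span_le.2 ?_
        rintro _ ⟨i, rfl⟩
        exact hbmem i
      exact hle hF
  have hcl : ComulClosed ((Submodule.span (inertiaRing P) (Set.range b) :
      Submodule (inertiaRing P) (W → Kb)) : Set (W → Kb)) := by
    have : ((Submodule.span (inertiaRing P) (Set.range b) :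
        Submodule (inertiaRing P) (W → Kb)) : Set (W → Kb)) = (B.alg : Set (W → Kb)) := by
      ext F
      exact (hset F).symm
    rw [this]
    exact B.comul
  have key := comulClosed_transInv_subring (inertiaRing P) b hli hcl {w : W | π w = 0}
  refine ⟨{ alg := quotAlg B π, fg := ?_, equiv := ?_, int := ?_, comul := ?_, neg := ?_,
            span := ?_ }, fun f => Iff.rfl⟩
  · -- finitely generated
    haveI : Module.Finite (inertiaRing P) (Subalgebra.toSubmodule B.alg) :=
      Module.Finite.iff_fg.mpr B.fg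
    let Φ : Subalgebra.toSubmodule (quotAlg B π) →ₗ[inertiaRing P]
        Subalgebra.toSubmodule B.alg :=
      { toFun := fun f => ⟨fun w => (f : Q → Kb) (π w), f.2⟩
        map_add' := fun f g => rfl
        map_smul' := fun r f => rfl }
    have hinj : Function.Injective Φ := by
      intro f g hfg
      apply Subtype.ext
      funext q
      obtain ⟨w, rfl⟩ := hsurj q
      exact congrFun (congrArg Subtype.val hfg) w
    exact Module.Finite.iff_fg.mp (Module.Finite.of_injective Φ hinj)
  · intro f hf σ hσ q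
    obtain ⟨w, rfl⟩ := hsurj q
    rw [← hπ σ hσ w]
    exact B.equiv _ hf σ hσ w
  · intro f hf q
    obtain ⟨w, rfl⟩ := hsurj q
    exact B.int _ hf w
  · -- comultiplication
    intro f hf
    have hF : (fun w => f (π w)) ∈ {F : W → Kb |
        F ∈ Submodule.span (inertiaRing P) (Set.range b) ∧ TransInv {w : W | π w = 0} F} := by
      refine ⟨(hset _).1 hf, fun v w hw => ?_⟩
      have hw' : π w = 0 := hw
      show f (π (v + w)) = f (π v)
      rw [map_add, hw', add_zero]
    obtain ⟨m, G, H, hG, hH, hGH⟩ := key _ hF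
    refine ⟨m, fun i => descLin π hsurj (G i), fun i => descLin π hsurj (H i), ?_, ?_, ?_⟩
    · intro i
      show (fun w => descLin π hsurj (G i) (π w)) ∈ B.alg
      have : (fun w => descLin π hsurj (G i) (π w)) = G i :=
        funext (transInv_desc π hsurj (G i) (hG i).2)
      rw [this]
      exact (hset _).2 (hG i).1
    · intro i
      show (fun w => descLin π hsurj (H i) (π w)) ∈ B.alg
      have : (fun w => descLin π hsurj (H i) (π w)) = H i :=
        funext (transInv_desc π hsurj (H i) (hH i).2)
      rw [this]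
      exact (hset _).2 (hH i).1
    · intro q q'
      obtain ⟨w, rfl⟩ := hsurj q
      obtain ⟨w', rfl⟩ := hsurj q'
      rw [← map_add]
      have h1 := hGH w w'
      simp only [descLin_apply, transInv_desc π hsurj _ (hG _).2,
        transInv_desc π hsurj _ (hH _).2]
      exact h1
  · intro f hf
    have := B.neg _ hf
    show (fun w => f (-(π w))) ∈ B.alg
    have e : (fun w => f (-(π w))) = fun w => f (π (-w)) := by
      funext w
      rw [map_neg]
    rw [e]
    exact this
  · -- span: averaging
    refine top_unique fun f _ => ?_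
    have hmap : ∀ β ∈ B.alg, descLin π hsurj (avgLin π β) ∈ quotAlg B π := by
      intro β hβ
      show (fun w => descLin π hsurj (avgLin π β) (π w)) ∈ B.alg
      have : (fun w => descLin π hsurj (avgLin π β) (π w)) = avgLin π β :=
        funext (transInv_desc π hsurj _ (avgLin_transInv π β))
      rw [this]
      exact avgLin_mem B π actQ hact hπ β hβ
    have hle : Submodule.map ((descLin π hsurj).comp (avgLin π))
        (Submodule.span Kb (B.alg : Set (W → Kb)))
        ≤ Submodule.span Kb (quotAlg B π : Set (Q → Kb)) := by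
      rw [Submodule.map_span]
      refine Submodule.span_mono ?_
      rintro _ ⟨β, hβ, rfl⟩
      exact hmap β hβ
    have hF : (fun w => f (π w)) ∈ Submodule.span Kb (B.alg : Set (W → Kb)) := by
      rw [B.span]
      trivial
    have h1 := hle (Submodule.mem_map_of_mem hF)
    rw [LinearMap.comp_apply, avgLin_of_comp, map_smul, descLin_comp] at h1
    have hcard : ((kerFin π).card : Kb) ≠ 0 := by
      refine Nat.cast_ne_zero.mpr (Finset.card_ne_zero.mpr ⟨0, ?_⟩)
      rw [mem_kerFin, map_zero]
    have h2 := Submodule.smul_mem _ (((kerFin π).card : Kb)⁻¹) h1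
    rwa [smul_smul, inv_mul_cancel₀ hcard, one_smul] at h2

/-- **TR3**. -/
theorem iOrdQuotProp (p : ℕ) (P : ValuationSubring Kb) : IOrdQuotProp p P :=
  iOrdQuotProp_of p P (basisProp p P)

end Fermat.Agent.S56.SS
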