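/-
S56, wall W4, case C, block TR, leaf **TR2** (helper13): restriction of an `I`-order to a
subgroup `N` (the restrictions of the functions of the order).
-/
import Fermat.Agent.S56.W4.C.TR.Defs

set_option autoImplicit false

namespace Fermat.Agent.S56.SS

open Fermat.Agent.F4 ExtCitation Fermat.Agent.FFL Fermat.Agent.FlatMod

local notation "Kb" => AlgebraicClosure ℚ
local notation "GK" => (AlgebraicClosure ℚ ≃ₐ[ℚ] AlgebraicClosure ℚ)

/-- Restriction of functions along `i : N → W`, as a homomorphism of `R'`-algebras. -/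
noncomputable def iOrdRestr (P : ValuationSubring Kb) {W N : Type*} (i : N → W) :
    (W → Kb) →ₐ[inertiaRing P] (N → Kb) where
  toFun g := fun n => g (i n)
  map_one' := rfl
  map_mul' _ _ := rfl
  map_zero' := rfl
  map_add' _ _ := rfl
  commutes' _ := rfl

theorem iOrdRestr_apply (P : ValuationSubring Kb) {W N : Type*} (i : N → W) (g : W → Kb)
    (n : N) : iOrdRestr P i g n = g (i n) := rfl

theorem mem_map_iOrdRestr (P : ValuationSubring Kb) {W N : Type*} (i : N → W)
    (A : Subalgebra (inertiaRing P) (W → Kb)) (f : N → Kb) :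
    f ∈ A.map (iOrdRestr P i) ↔ ∃ g ∈ A, f = fun n => g (i n) := by
  rw [Subalgebra.mem_map]
  constructor
  · rintro ⟨g, hg, rfl⟩
    exact ⟨g, hg, rfl⟩
  · rintro ⟨g, hg, rfl⟩
    exact ⟨g, hg, rfl⟩

/-- The restriction of an `I`-order along an injective additive map compatible with the actions
of inertia. -/
noncomputable def iOrdRestrict (P : ValuationSubring Kb) {W : Type*} [AddCommGroup W]
    {act : GK → W → W} (B : IOrd P W act) {N : Type*} [AddCommGroup N] (i : N →+ W)
    (actN : GK → N → N) (hi : Function.Injective i)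
    (hact : ∀ σ ∈ P.inertiaSubgroupIn ℚ, ∀ n : N, i (actN σ n) = act σ (i n)) :
    IOrd P N actN where
  alg := B.alg.map (iOrdRestr P i)
  fg := by
    have h : Subalgebra.toSubmodule (B.alg.map (iOrdRestr P i)) =
        (Subalgebra.toSubmodule B.alg).map (iOrdRestr P i).toLinearMap := by
      ext f
      simp only [Subalgebra.mem_toSubmodule, Subalgebra.mem_map, Submodule.mem_map,
        AlgHom.toLinearMap_apply]
    rw [h]
    exact B.fg.map _
  equiv := by
    intro f hf σ hσ n
    obtain ⟨g, hg, rfl⟩ := (mem_map_iOrdRestr P i B.alg f).1 hf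
    show g (i (actN σ n)) = σ (g (i n))
    rw [hact σ hσ n]
    exact B.equiv g hg σ hσ (i n)
  int := by
    intro f hf n
    obtain ⟨g, hg, rfl⟩ := (mem_map_iOrdRestr P i B.alg f).1 hf
    exact B.int g hg (i n)
  comul := by
    intro f hf
    obtain ⟨g, hg, rfl⟩ := (mem_map_iOrdRestr P i B.alg f).1 hf
    obtain ⟨m, a, b, ha, hb, hab⟩ := B.comul g hg
    refine ⟨m, fun j => fun n => a j (i n), fun j => fun n => b j (i n),
      fun j => (mem_map_iOrdRestr P i B.alg _).2 ⟨a j, ha j, rfl⟩,
      fun j => (mem_map_iOrdRestr P i B.alg _).2 ⟨b j, hb j, rfl⟩, fun n n' => ?_⟩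
    show g (i (n + n')) = ∑ j, a j (i n) * b j (i n')
    rw [map_add]
    exact hab (i n) (i n')
  neg := by
    intro f hf
    obtain ⟨g, hg, rfl⟩ := (mem_map_iOrdRestr P i B.alg f).1 hf
    refine (mem_map_iOrdRestr P i B.alg _).2 ⟨fun w => g (-w), B.neg g hg, ?_⟩
    funext n
    show g (i (-n)) = g (-(i n))
    rw [map_neg]
  span := by
    refine eq_top_iff.2 (fun f _ => ?_)
    have hF : Function.extend i f 0 ∈ Submodule.span Kb (B.alg : Set (W → Kb)) := by
      rw [B.span]; trivial
    have h1 : LinearMap.funLeft Kb Kb i (Function.extend i f 0) ∈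
        (Submodule.span Kb (B.alg : Set (W → Kb))).map (LinearMap.funLeft Kb Kb i) :=
      Submodule.mem_map_of_mem hF
    rw [Submodule.map_span] at h1
    have h2 : LinearMap.funLeft Kb Kb i (Function.extend i f 0) = f := by
      funext n
      show Function.extend i f 0 (i n) = f n
      exact hi.extend_apply f 0 n
    rw [h2] at h1
    refine Submodule.span_mono ?_ h1
    rintro _ ⟨g, hg, rfl⟩
    exact (mem_map_iOrdRestr P i B.alg _).2 ⟨g, hg, rfl⟩

/-- **TR2**: restriction of an `I`-order to a subgroup. -/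
theorem iOrdSubProp (P : ValuationSubring Kb) : IOrdSubProp P := by
  intro W _ act B N _ i actN hi hact
  exact ⟨iOrdRestrict P B i actN hi hact, fun f => mem_map_iOrdRestr P i B.alg f⟩

end Fermat.Agent.S56.SS
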