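/-
S56, wall W4, case C, block TR (sub-architect helper37): the block's deliverable
`hopfSideProp : HopfSideProp p`, UNCONDITIONAL.

Leaves: `iOrdHopfProp`, `iOrdSubProp` (helper13), `iOrdQuotProp` (helper7), `valOrbitProp`
(helper74), `sharpAbsProp` (helper25), `cheapAbsProp`, assembly `hopfSideProp_of_leaves`
(helper37); from block D (helper26): `t3Prop`, `redProp`.
-/
import Fermat.Agent.S56.W4.C.TR.Asm
import Fermat.Agent.S56.W4.C.TR.Cheap
import Fermat.Agent.S56.W4.C.TR.IOrdHopf
import Fermat.Agent.S56.W4.C.TR.IOrdSub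
import Fermat.Agent.S56.W4.C.TR.IOrdQuot
import Fermat.Agent.S56.W4.C.TR.Val
import Fermat.Agent.S56.W4.C.D.Red
import Fermat.Agent.S56.W4.C.D.Final

set_option autoImplicit false

namespace Fermat.Agent.S56.SS

/-- **Block TR** modulo `T3Prop` (block D) and the quotient leaf TR3. -/
theorem hopfSideProp_of_T3_quot (p : ℕ) [Fact p.Prime] (hT3 : T3Prop p (Pp p))
    (hQuot : IOrdQuotProp p (Pp p)) : HopfSideProp p :=
  hopfSideProp_of_leaves hT3 (redProp (Pp p)) (iOrdHopfProp p (Pp p)) (iOrdSubProp (Pp p)) hQuot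
    (valOrbitProp p (Pp p)) (sharpAbsProp p (Pp p)) (cheapAbsProp p (Pp p))

/-- **Block TR** (Hopf side): a flat tangent module satisfies CHEAP and SHARP. -/
theorem hopfSideProp (p : ℕ) [Fact p.Prime] : HopfSideProp p :=
  hopfSideProp_of_T3_quot p (t3Prop p (Pp p)) (iOrdQuotProp p (Pp p))

end Fermat.Agent.S56.SS
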